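import Mathlib

set_option autoImplicit false

namespace Fermat.Agent.S23

open MvPolynomial

/-- Extension of a ring automorphism of the polynomial ring on a transcendence basis to `ℂ`. -/
theorem autC_extend {R : Type*} [Field R] [Algebra R ℂ] {ι : Type*} (v : ι → ℂ)
    (hv : IsTranscendenceBasis R v) (ε : MvPolynomial ι R ≃+* MvPolynomial ι R) :
    ∃ σ : ℂ ≃+* ℂ, ∀ P : MvPolynomial ι R, σ (aeval v P) = aeval v (ε P) := by
  let _ := IsAlgClosed.isAlgClosure_of_transcendence_basis v hv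
  let e : Algebra.adjoin R (Set.range v) ≃+* Algebra.adjoin R (Set.range v) :=
    hv.1.aevalEquiv.symm.toRingEquiv.trans (ε.trans hv.1.aevalEquiv.toRingEquiv)
  refine ⟨IsAlgClosure.equivOfEquiv ℂ ℂ e, fun P => ?_⟩
  rw [← hv.1.algebraMap_aevalEquiv P, IsAlgClosure.equivOfEquiv_algebraMap,
    ← hv.1.algebraMap_aevalEquiv (ε P)]
  congr 1
  simp [e]

/-- the translation automorphism `X i₀ ↦ X i₀ + 1` -/
noncomputable def autCShift {ι : Type*} [DecidableEq ι] (i₀ : ι) :
    MvPolynomial ι ℚ ≃ₐ[ℚ] MvPolynomial ι ℚ :=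
  AlgEquiv.ofAlgHom (aeval fun i => if i = i₀ then X i + 1 else X i)
    (aeval fun i => if i = i₀ then X i - 1 else X i)
    (by
      ext i
      by_cases h : i = i₀ <;> simp [h])
    (by
      ext i
      by_cases h : i = i₀ <;> simp [h])

/-- (M1) The fixed field of `Aut(ℂ)` is `ℚ`. -/
theorem autC_fixed (x : ℂ) (h : ∀ σ : ℂ ≃+* ℂ, σ x = x) : ∃ r : ℚ, x = (r : ℂ) := by
  classical
  by_cases hx : IsAlgebraic ℚ x
  · -- algebraic case
    let Qb := algebraicClosure ℚ ℂ
    have hxm : x ∈ Qb := mem_algebraicClosure_iff.mpr hx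
    let x' : Qb := ⟨x, hxm⟩
    have : IsAlgClosure ℚ Qb := algebraicClosure.isAlgClosure ℚ ℂ
    have : IsGalois ℚ Qb := inferInstance
    by_contra hcon
    have hnot : x' ∉ Set.range (algebraMap ℚ Qb) := by
      rintro ⟨r, hr⟩
      apply hcon
      refine ⟨r, ?_⟩
      have := congrArg (Subtype.val) hr
      simpa [x'] using this.symm
    rw [InfiniteGalois.mem_range_algebraMap_iff_fixed] at hnot
    push Not at hnot
    obtain ⟨τ, hτ⟩ := hnot
    obtain ⟨ι, v, hv⟩ := exists_isTranscendenceBasis' Qb ℂ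
    obtain ⟨σ, hσ⟩ := autC_extend v hv (MvPolynomial.mapEquiv ι τ.toRingEquiv)
    have h1 := hσ (C x')
    simp only [aeval_C, MvPolynomial.mapEquiv_apply, map_C] at h1
    apply hτ
    apply Subtype.ext
    have h2 : σ x = x := h σ
    have h3 : algebraMap Qb ℂ x' = x := rfl
    rw [h3, h2] at h1
    exact h1.symm
  · -- transcendental case
    exfalso
    have hind : AlgebraicIndepOn ℚ id ({x} : Set ℂ) := by
      rw [AlgebraicIndepOn, algebraicIndependent_singleton_iff ⟨x, rfl⟩]
      exact hx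
    obtain ⟨t, hst, ht⟩ := exists_isTranscendenceBasis_superset hind
    let i₀ : t := ⟨x, hst rfl⟩
    obtain ⟨σ, hσ⟩ := autC_extend _ ht (autCShift i₀).toRingEquiv
    have h1 := hσ (X i₀)
    have h2 : (autCShift i₀).toRingEquiv (X i₀) = X i₀ + 1 := by
      simp [autCShift]
    rw [h2] at h1
    simp only [aeval_X, map_add, map_one] at h1
    have h3 : σ x = x := h σ
    have h4 : ((i₀ : t) : ℂ) = x := rfl
    rw [h4, h3] at h1
    simp at h1

end Fermat.Agent.S23
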