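import Mathlib
import Fermat.Agent.S23.AutC

set_option autoImplicit false

namespace Fermat.Agent.S23

open Module

/-- (M7) abstract descent: a finite dimensional space of "`q`-expansions" stable under `Aut ℂ`
is spanned by its rational elements. -/
theorem descent_span_rational {V : Type*} [AddCommGroup V] [Module ℂ V] [FiniteDimensional ℂ V]
    (a : ℕ → Dual ℂ V) (hinj : ∀ f, (∀ n, a n f = 0) → f = 0)
    (hσ : ∀ (σ : ℂ ≃+* ℂ) (f : V), ∃ g : V, ∀ n, a n g = σ (a n f)) :
    Submodule.span ℂ {f : V | ∀ n, ∃ r : ℚ, a n f = r} = ⊤ := by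
  classical
  have hspan : Submodule.span ℂ (Set.range a) = ⊤ := by
    have h1 : (Submodule.span ℂ (Set.range a)).dualCoannihilator = ⊥ := by
      rw [eq_bot_iff]
      intro f hf
      rw [Submodule.mem_dualCoannihilator] at hf
      exact hinj f fun n => hf (a n) (Submodule.subset_span ⟨n, rfl⟩)
    have h2 := Subspace.dualCoannihilator_dualAnnihilator_eq
      (W := Submodule.span ℂ (Set.range a))
    rw [h1, Submodule.dualAnnihilator_bot] at h2
    exact h2.symm
  let b := Basis.ofSpan hspan.ge
  have hb : ∀ i, ∃ n, a n = b i := fun i => Basis.ofSpan_subset hspan.ge ⟨i, rfl⟩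
  choose ν hν using hb
  have : Finite _ := Module.Finite.finite_basis b
  have := Fintype.ofFinite ((linearIndepOn_empty ℂ id).extend (Set.empty_subset (Set.range a)))
  let e := b.dualBasis.map (evalEquiv ℂ V).symm
  have he : ∀ i j, b j (e i) = if i = j then 1 else 0 := by
    intro i j
    have h1 : Dual.eval ℂ V (e i) = b.dualBasis i := by
      simp only [e, Basis.map_apply]
      rw [← evalEquiv_toLinearMap]
      exact (evalEquiv ℂ V).apply_symm_apply _
    have h2 : b j (e i) = Dual.eval ℂ V (e i) (b j) := rfl
    rw [h2, h1, Basis.dualBasis_apply_self]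
    simp only [eq_comm]
  have hsep : ∀ f g : V, (∀ j, b j f = b j g) → f = g := by
    intro f g h
    rw [← sub_eq_zero]
    apply hinj
    intro n
    have key : ∀ φ ∈ Submodule.span ℂ (Set.range b), φ (f - g) = 0 := by
      intro φ hφ
      induction hφ using Submodule.span_induction with
      | mem x hx => obtain ⟨j, rfl⟩ := hx; rw [map_sub, h j, sub_self]
      | zero => simp
      | add x y _ _ hx hy => rw [LinearMap.add_apply, hx, hy, add_zero]
      | smul c x _ hx => rw [LinearMap.smul_apply, hx, smul_zero]
    exact key _ (by rw [b.span_eq]; trivial)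
  rw [eq_top_iff, ← e.span_eq]
  apply Submodule.span_mono
  rintro _ ⟨i, rfl⟩ n
  apply autC_fixed
  intro σ
  obtain ⟨g, hg⟩ := hσ σ (e i)
  have : g = e i := by
    apply hsep
    intro j
    rw [← hν j, hg, hν j, he]
    split_ifs <;> simp
  rw [← hg, this]

end Fermat.Agent.S23
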