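import Fermat.Agent.S22
import Fermat.Agent.S23.Descent
import Fermat.Prelude.Def_CuspForm_IntegralStructure
import Fermat.Prelude.Thm_ModularFormClass_qCoeff_heckeT
import Fermat.Prelude.Thm_ModularFormClass_qCoeff_heckeU
import Fermat.Prelude.Thm_CongruenceSubgroup_one_mem_strictPeriods_Gamma0
import Fermat.Prelude.Thm_UpperHalfPlane_eq_of_forall_qCoeff_eq
import Fermat.Prelude.Thm_ModularForm_sturm_bound_Gamma0

set_option autoImplicit false

namespace Fermat.Agent.S23

open ModularFormClass CuspForm UpperHalfPlane Module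

/-- the `n`-th `q`-expansion coefficient as a linear functional on cusp forms -/
noncomputable def denomCoeff (N : ℕ) (k : ℤ) (n : ℕ) :
    Dual ℂ (CuspForm (CongruenceSubgroup.Gamma0 N) k) where
  toFun f := qCoeff f n
  map_add' f g := by
    simp only [qCoeff, FunLike.coe_add]
    rw [ModularForm.qExpansion_add one_pos (CongruenceSubgroup.one_mem_strictPeriods_Gamma0 N) f g,
      map_add]
  map_smul' c f := by
    simp only [qCoeff, FunLike.coe_smul, RingHom.id_apply]
    rw [ModularForm.qExpansion_smul one_pos (CongruenceSubgroup.one_mem_strictPeriods_Gamma0 N) c f,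
      PowerSeries.coeff_smul]

lemma denomCoeff_apply (N : ℕ) (k : ℤ) (n : ℕ) (f : CuspForm (CongruenceSubgroup.Gamma0 N) k) :
    denomCoeff N k n f = qCoeff f n := rfl

lemma denomCoeff_zero (N : ℕ) (k : ℤ) (f : CuspForm (CongruenceSubgroup.Gamma0 N) k) :
    denomCoeff N k 0 f = 0 := by
  rw [denomCoeff_apply, qCoeff]
  exact CuspFormClass.qExpansion_coeff_zero f one_pos
    (CongruenceSubgroup.one_mem_strictPeriods_Gamma0 N)

lemma denomCoeff_inj (N : ℕ) (k : ℤ) (f : CuspForm (CongruenceSubgroup.Gamma0 N) k)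
    (h : ∀ n, denomCoeff N k n f = 0) : f = 0 := by
  have hΓ := CongruenceSubgroup.one_mem_strictPeriods_Gamma0 N
  have : Fact (IsCusp OnePoint.infty
      (Subgroup.map (Matrix.SpecialLinearGroup.mapGL ℝ) (CongruenceSubgroup.Gamma0 N))) :=
    ⟨Subgroup.isCusp_of_mem_strictPeriods one_pos hΓ⟩
  have h0 : qExpansion 1 f = 0 := by
    ext n
    simpa [denomCoeff_apply, qCoeff] using h n
  rw [qExpansion_eq_zero_iff one_pos (SlashInvariantFormClass.periodic_comp_ofComplex f hΓ)
    (ModularFormClass.holo f) (ModularFormClass.bdd_at_infty f)] at h0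
  exact DFunLike.coe_injective h0

/-- finite dimensionality of spaces of cusp forms, from the Sturm bound -/
lemma denom_finiteDimensional (N : ℕ) [NeZero N] (k : ℤ) :
    FiniteDimensional ℂ (CuspForm (CongruenceSubgroup.Gamma0 N) k) := by
  let B := (k * (CongruenceSubgroup.Gamma0 N).index).toNat / 12
  let L : CuspForm (CongruenceSubgroup.Gamma0 N) k →ₗ[ℂ] (Fin (B + 1) → ℂ) :=
    LinearMap.pi fun i => denomCoeff N k i
  apply FiniteDimensional.of_injective L
  rw [← LinearMap.ker_eq_bot, LinearMap.ker_eq_bot']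
  intro f hf
  have hz : CuspForm.toModularFormₗ f = 0 := by
    apply ModularForm.sturm_bound_Gamma0 N
    intro n hn
    exact congrFun hf ⟨n, Nat.lt_succ_of_le hn⟩
  exact CuspForm.toModularFormₗ_injective (by rw [hz, _root_.map_zero])

/-- every coefficient functional is `a₁ ∘ t` for a Hecke operator `t`. -/
lemma denom_exists_hecke (N : ℕ) [NeZero N] (n : ℕ) (hn : 0 < n) :
    ∃ t ∈ heckeAlgebra N 2 ∅, ∀ f, denomCoeff N 2 n f = denomCoeff N 2 1 (t f) := by
  have hΓ := CongruenceSubgroup.one_mem_strictPeriods_Gamma0 N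
  induction n using Nat.strong_induction_on with
  | _ n ih =>
    rcases Nat.lt_or_ge 1 n with h1 | h1
    · obtain ⟨p, hp, m, rfl⟩ := Nat.exists_prime_and_dvd (n := n) (by omega)
      have hm : 0 < m := Nat.pos_of_mul_pos_left hn |> fun _ => by
        rcases Nat.eq_zero_or_pos m with h | h
        · subst h; simp at hn
        · exact h
      have hmlt : m < p * m := by
        have := hp.two_le
        nlinarith
      obtain ⟨tm, htm, hm'⟩ := ih m hmlt hm
      by_cases hpN : p ∣ N
      · refine ⟨tm * heckeULin 2 hpN, mul_mem htm (heckeULin_mem_heckeAlgebra hp hpN (by simp)), ?_⟩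
        intro f
        rw [Module.End.mul_apply, ← hm', denomCoeff_apply, denomCoeff_apply, coe_heckeULin_apply,
          ModularFormClass.qCoeff_heckeU f hΓ hp.ne_zero, ModularForm.coeffHeckeU_apply, mul_comm]
      · by_cases hpm : p ∣ m
        · have hmp : 0 < m / p := Nat.div_pos (Nat.le_of_dvd hm hpm) hp.pos
          have hmplt : m / p < p * m := lt_of_le_of_lt (Nat.div_le_self _ _) hmlt
          obtain ⟨tm', htm', hm''⟩ := ih (m / p) hmplt hmp
          refine ⟨tm * heckeTLin 2 hp hpN - (p : ℤ) • tm', sub_mem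
            (mul_mem htm (heckeTLin_mem_heckeAlgebra hp hpN (by simp)))
            ((heckeAlgebra N 2 ∅).smul_mem htm' _), ?_⟩
          intro f
          rw [LinearMap.sub_apply, map_sub, Module.End.mul_apply, ← hm', LinearMap.smul_apply,
            map_zsmul, ← hm'', denomCoeff_apply, denomCoeff_apply, denomCoeff_apply,
            coe_heckeTLin_apply, ModularFormClass.qCoeff_heckeT f hΓ hp.ne_zero,
            ModularForm.coeffHeckeT_of_dvd 2 hpm, mul_comm p m]
          simp
        · refine ⟨tm * heckeTLin 2 hp hpN,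
            mul_mem htm (heckeTLin_mem_heckeAlgebra hp hpN (by simp)), ?_⟩
          intro f
          rw [Module.End.mul_apply, ← hm', denomCoeff_apply, denomCoeff_apply,
            coe_heckeTLin_apply, ModularFormClass.qCoeff_heckeT f hΓ hp.ne_zero,
            ModularForm.coeffHeckeT_of_not_dvd 2 hpm, mul_comm]
    · obtain rfl : n = 1 := by omega
      exact ⟨1, one_mem _, fun f => rfl⟩

/-- a finitely generated subgroup of `ℚ` has bounded denominators -/
lemma denom_bounded (S : Finset ℚ) :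
    ∃ M : ℕ, M ≠ 0 ∧ ∀ x ∈ Submodule.span ℤ (S : Set ℚ), ∃ m : ℤ, (M : ℚ) * x = m := by
  refine ⟨∏ x ∈ S, x.den, Finset.prod_ne_zero_iff.mpr fun x _ => x.den_nz, ?_⟩
  intro x hx
  induction hx using Submodule.span_induction with
  | mem x hx =>
    obtain ⟨c, hc⟩ := Finset.dvd_prod_of_mem (fun x : ℚ => x.den) hx
    refine ⟨c * x.num, ?_⟩
    rw [hc]
    push_cast
    have := Rat.den_mul_eq_num x
    linear_combination (c : ℚ) * this
  | zero => exact ⟨0, by simp⟩
  | add x y _ _ hx hy =>
    obtain ⟨a, ha⟩ := hx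
    obtain ⟨b, hb⟩ := hy
    exact ⟨a + b, by rw [mul_add, ha, hb, Int.cast_add]⟩
  | smul c x _ hx =>
    obtain ⟨a, ha⟩ := hx
    exact ⟨c * a, by rw [zsmul_eq_mul, Int.cast_mul, ← ha]; ring⟩

/-- (M9) a cusp form with rational coefficients has bounded denominators. -/
lemma denom_exists (N : ℕ) [NeZero N] (f : CuspForm (CongruenceSubgroup.Gamma0 N) 2)
    (hf : ∀ n, ∃ r : ℚ, denomCoeff N 2 n f = r) :
    ∃ M : ℕ, M ≠ 0 ∧ ∀ n, ∃ m : ℤ, (M : ℂ) * denomCoeff N 2 n f = m := by
  classical
  -- a `ℚ`-linear retraction of `ℚ → ℂ`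
  obtain ⟨π, hπ⟩ := LinearMap.exists_leftInverse_of_injective (Algebra.linearMap ℚ ℂ)
    (LinearMap.ker_eq_bot.mpr (algebraMap ℚ ℂ).injective)
  have hπ' : ∀ r : ℚ, π (r : ℂ) = r := fun r => LinearMap.congr_fun hπ r
  -- the `ℤ`-linear map `t ↦ π (a₁ (t f))`
  let Φ : heckeAlgebra N 2 ∅ →ₗ[ℤ] ℚ :=
    { toFun := fun t => π (denomCoeff N 2 1 ((t : Module.End ℂ _) f))
      map_add' := fun s t => by simp
      map_smul' := fun c t => by
        simp only [Subalgebra.coe_smul, LinearMap.smul_apply, map_zsmul, eq_intCast, Int.cast_id] }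
  have hfin : Module.Finite ℤ (heckeAlgebra N 2 ∅) := Fermat.Agent.S22.result N 2 ∅
  have hfg : (LinearMap.range Φ).FG := by
    rw [LinearMap.range_eq_map]
    exact hfin.fg_top.map Φ
  obtain ⟨S, hS⟩ := hfg
  obtain ⟨M, hM0, hM⟩ := denom_bounded S
  refine ⟨M, hM0, fun n => ?_⟩
  rcases Nat.eq_zero_or_pos n with rfl | hn
  · exact ⟨0, by rw [denomCoeff_zero]; simp⟩
  · obtain ⟨t, ht, htf⟩ := denom_exists_hecke N n hn
    obtain ⟨r, hr⟩ := hf n
    have hmem : r ∈ Submodule.span ℤ (S : Set ℚ) := by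
      rw [hS]
      refine ⟨⟨t, ht⟩, ?_⟩
      show π (denomCoeff N 2 1 (t f)) = r
      rw [← htf, hr, hπ']
    obtain ⟨m, hm⟩ := hM r hmem
    refine ⟨m, ?_⟩
    rw [hr]
    exact_mod_cast hm

/-- (M7)+(M9): `Aut ℂ`-stability of the space of `q`-expansions implies the integral structure. -/
theorem descent_hasIntegralStructure (N : ℕ) [NeZero N]
    (hσ : ∀ (σ : ℂ ≃+* ℂ) (f : CuspForm (CongruenceSubgroup.Gamma0 N) 2),
      ∃ g : CuspForm (CongruenceSubgroup.Gamma0 N) 2, ∀ n, qCoeff g n = σ (qCoeff f n)) :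
    CuspForm.HasIntegralStructure N 2 := by
  have := denom_finiteDimensional N 2
  have h1 := descent_span_rational (denomCoeff N 2) (denomCoeff_inj N 2) hσ
  rw [CuspForm.HasIntegralStructure, eq_top_iff, ← h1, Submodule.span_le]
  intro f hf
  obtain ⟨M, hM0, hM⟩ := denom_exists N f hf
  have hMf : (M : ℂ) • f ∈ CuspForm.intLattice N 2 := by
    apply Submodule.subset_span
    intro n
    obtain ⟨m, hm⟩ := hM n
    refine ⟨m, ?_⟩
    rw [← hm, ← denomCoeff_apply, map_smul, smul_eq_mul]
  have : f = (M : ℂ)⁻¹ • ((M : ℂ) • f) := by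
    rw [smul_smul, inv_mul_cancel₀ (Nat.cast_ne_zero.mpr hM0), one_smul]
  rw [this]
  exact Submodule.smul_mem _ _ (Submodule.subset_span hMf)

end Fermat.Agent.S23
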