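import Mathlib

set_option autoImplicit false

open UpperHalfPlane ModularForm EisensteinSeries
open scoped MatrixGroups

namespace Fermat.Agent.S23

/-- (M2a) `E₄` has integral `q`-expansion. -/
theorem levelOne_E4_int (n : ℕ) : ∃ m : ℤ, (qExpansion 1 E₄).coeff n = (m : ℂ) := by
  rw [E_qExpansion_coeff _ ⟨2, rfl⟩]
  by_cases h : n = 0
  · exact ⟨1, by simp [h]⟩
  · refine ⟨240 * (ArithmeticFunction.sigma 3 n : ℤ), ?_⟩
    rw [if_neg h]
    norm_num [show bernoulli 4 = -1 / 30 by decide +kernel]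

/-- (M2b) `E₆` has integral `q`-expansion. -/
theorem levelOne_E6_int (n : ℕ) : ∃ m : ℤ, (qExpansion 1 E₆).coeff n = (m : ℂ) := by
  rw [E_qExpansion_coeff _ ⟨3, rfl⟩]
  by_cases h : n = 0
  · exact ⟨1, by simp [h]⟩
  · refine ⟨-504 * (ArithmeticFunction.sigma 5 n : ℤ), ?_⟩
    rw [if_neg h]
    norm_num [show bernoulli 6 = 1 / 42 by decide +kernel]

/-- (M2d) the monomial `E₄ ^ a * E₆ ^ b` as a modular form with its `q`-expansion. -/
theorem levelOne_monomial (a b : ℕ) :
    ∃ M : ModularForm 𝒮ℒ (4 * (a : ℤ) + 6 * (b : ℤ)), (∀ z : ℍ, M z = E₄ z ^ a * E₆ z ^ b) ∧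
      qExpansion 1 M = qExpansion 1 E₄ ^ a * qExpansion 1 E₆ ^ b := by
  refine ⟨ModularForm.mcast (by ring) ((E₄.pow a).mul (E₆.pow b)), fun z => ?_, ?_⟩
  · simp [coe_mcast, coe_mul, coe_pow]
  · rw [coe_mcast, ModularForm.qExpansion_mul one_pos one_mem_strictPeriods_SL,
      ModularForm.qExpansion_pow one_pos one_mem_strictPeriods_SL,
      ModularForm.qExpansion_pow one_pos one_mem_strictPeriods_SL]

/-- the monomial functions -/
noncomputable def levelOneMono (p : ℕ × ℕ) : ℍ → ℂ := fun z => E₄ z ^ p.1 * E₆ z ^ p.2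

/-- the span of the monomials of weight `K` -/
noncomputable def levelOneW (K : ℤ) : Submodule ℂ (ℍ → ℂ) :=
  Submodule.span ℂ (levelOneMono '' {p : ℕ × ℕ | 4 * (p.1 : ℤ) + 6 * (p.2 : ℤ) = K})

lemma levelOne_mono_mem {K : ℤ} (p : ℕ × ℕ) (hp : 4 * (p.1 : ℤ) + 6 * (p.2 : ℤ) = K) :
    levelOneMono p ∈ levelOneW K :=
  Submodule.subset_span ⟨p, hp, rfl⟩

/-- multiplication by `Δ` maps `W (K - 12)` to `W K` -/
lemma levelOne_discriminant_mul_mem {K : ℤ} {G : ℍ → ℂ} (hG : G ∈ levelOneW (K - 12)) :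
    ModularForm.discriminant * G ∈ levelOneW K := by
  unfold levelOneW at hG
  induction hG using Submodule.span_induction with
  | mem x hx =>
    obtain ⟨p, hp, rfl⟩ := hx
    have hp' : 4 * (p.1 : ℤ) + 6 * (p.2 : ℤ) = K - 12 := hp
    have : ModularForm.discriminant * levelOneMono p
        = (1 / 1728 : ℂ) • levelOneMono (p.1 + 3, p.2) - (1 / 1728 : ℂ) • levelOneMono (p.1, p.2 + 2) := by
      ext z
      simp only [Pi.mul_apply, Pi.sub_apply, Pi.smul_apply, smul_eq_mul, levelOneMono,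
        discriminant_eq_E₄_cube_sub_E₆_sq]
      ring
    rw [this]
    refine Submodule.sub_mem _ (Submodule.smul_mem _ _ (levelOne_mono_mem _ ?_))
      (Submodule.smul_mem _ _ (levelOne_mono_mem _ ?_))
    · push_cast; linarith
    · push_cast; linarith
  | zero => simp
  | add x y _ _ hx hy => rw [mul_add]; exact Submodule.add_mem _ hx hy
  | smul c x _ hx => rw [mul_smul_comm]; exact Submodule.smul_mem _ c hx

lemma levelOne_exists_ab {K : ℤ} (h4 : 4 ≤ K) (hev : Even K) :
    ∃ a b : ℕ, 4 * (a : ℤ) + 6 * (b : ℤ) = K := by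
  obtain ⟨m, hm⟩ := hev
  rcases Int.even_or_odd' m with ⟨c, hc | hc⟩
  · exact ⟨c.toNat, 0, by have : 0 ≤ c := by omega
                          rw [Int.toNat_of_nonneg this]; omega⟩
  · exact ⟨(c - 1).toNat, 1, by have : 0 ≤ c - 1 := by omega
                                rw [Int.toNat_of_nonneg this]; omega⟩

lemma levelOne_mem_aux (n : ℕ) : ∀ K : ℤ, K < n → ∀ F : ModularForm 𝒮ℒ K, ⇑F ∈ levelOneW K := by
  induction n with
  | zero =>
    intro K hK F
    rw [ModularFormClass.levelOne_neg_weight_eq_zero (by simpa using hK) F]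
    exact Submodule.zero_mem _
  | succ n ih =>
    intro K hK F
    by_cases hlt : K < n
    · exact ih K hlt F
    have hKn : K = n := by push_cast at hK; omega
    rcases Int.even_or_odd K with hev | hodd
    swap
    · rw [ModularForm.levelOne_odd_weight_eq_zero hodd F]
      exact Submodule.zero_mem _
    by_cases h4 : 4 ≤ K
    · obtain ⟨a, b, hab⟩ := levelOne_exists_ab h4 hev
      subst hab
      obtain ⟨M, hM, hMq⟩ := levelOne_monomial a b
      set c : ℂ := (qExpansion 1 F).coeff 0 with hc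
      have hM0 : (qExpansion 1 M).coeff 0 = 1 := by
        rw [hMq]
        simp only [PowerSeries.coeff_zero_eq_constantCoeff, map_mul, map_pow]
        rw [← PowerSeries.coeff_zero_eq_constantCoeff_apply,
          ← PowerSeries.coeff_zero_eq_constantCoeff_apply,
          E_qExpansion_coeff_zero _ ⟨2, rfl⟩, E_qExpansion_coeff_zero _ ⟨3, rfl⟩]
        simp
      have hcusp : (qExpansion 1 ⇑(F - c • M)).coeff 0 = 0 := by
        rw [FunLike.coe_sub, ModularForm.qExpansion_sub one_pos one_mem_strictPeriods_SL,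
          FunLike.coe_smul, ModularForm.qExpansion_smul one_pos one_mem_strictPeriods_SL, map_sub,
          PowerSeries.coeff_smul, hM0]
        simp [hc]
      have hdec := discriminant_mul_discriminantEquiv (toCuspForm (F - c • M) hcusp)
      have hG := ih _ (by omega) (CuspForm.discriminantEquiv (toCuspForm (F - c • M) hcusp))
      have h1 := levelOne_discriminant_mul_mem hG
      rw [hdec] at h1
      have h2 : (⇑(toCuspForm (F - c • M) hcusp) : ℍ → ℂ) = ⇑F - c • ⇑M := by
        ext z; rfl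
      have h3 : (⇑M : ℍ → ℂ) = levelOneMono (a, b) := by
        ext z; exact hM z
      have h4 : (⇑F : ℍ → ℂ) = ⇑(toCuspForm (F - c • M) hcusp) + c • levelOneMono (a, b) := by
        rw [h2, h3]; ring
      rw [h4]
      exact Submodule.add_mem _ h1 (Submodule.smul_mem _ _ (levelOne_mono_mem _ rfl))
    · -- `K = 0` or `K = 2`
      have hK0 : 0 ≤ K := by omega
      obtain ⟨m, hm⟩ := hev
      have : K = 0 ∨ K = 2 := by omega
      rcases this with rfl | rfl
      · obtain ⟨c, hc⟩ := ModularFormClass.levelOne_weight_zero_const F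
        have : (⇑F : ℍ → ℂ) = c • levelOneMono (0, 0) := by
          rw [hc]; ext z; simp [levelOneMono]
        rw [this]
        exact Submodule.smul_mem _ _ (levelOne_mono_mem _ (by simp))
      · have : F = 0 := by
          have := rank_zero_iff_forall_zero.mp levelOne_weight_two_rank_zero
          exact this F
        rw [this]
        exact Submodule.zero_mem _

/-- (M2c) Every level one modular form is a polynomial in `E₄`, `E₆`. -/
theorem levelOne_span (K : ℤ) (F : ModularForm 𝒮ℒ K) :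
    ∃ (s : Finset (ℕ × ℕ)) (x : ℕ × ℕ → ℂ), (∀ p ∈ s, 4 * (p.1 : ℤ) + 6 * (p.2 : ℤ) = K) ∧
      ∀ z : ℍ, F z = ∑ p ∈ s, x p * (E₄ z ^ p.1 * E₆ z ^ p.2) := by
  have h := levelOne_mem_aux (K.toNat + 1) K (by have := Int.self_le_toNat K; push_cast; omega) F
  obtain ⟨l, hl, hlF⟩ := (Finsupp.mem_span_image_iff_linearCombination ℂ).mp h
  refine ⟨l.support, l, fun p hp => hl hp, fun z => ?_⟩
  rw [← hlF, Finsupp.linearCombination_apply, Finsupp.sum, Finset.sum_apply]
  rfl

lemma levelOne_map_E4 (σ : ℂ →+* ℂ) : PowerSeries.map σ (qExpansion 1 E₄) = qExpansion 1 E₄ := by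
  ext n
  obtain ⟨m, hm⟩ := levelOne_E4_int n
  rw [PowerSeries.coeff_map, hm, map_intCast]

lemma levelOne_map_E6 (σ : ℂ →+* ℂ) : PowerSeries.map σ (qExpansion 1 E₆) = qExpansion 1 E₆ := by
  ext n
  obtain ⟨m, hm⟩ := levelOne_E6_int n
  rw [PowerSeries.coeff_map, hm, map_intCast]

/-- the monomial of exponents `p` as a form of weight `K` (zero if the weight is wrong) -/
noncomputable def levelOneMonoForm (K : ℤ) (p : ℕ × ℕ) : ModularForm 𝒮ℒ K :=
  if h : 4 * (p.1 : ℤ) + 6 * (p.2 : ℤ) = K then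
    ModularForm.mcast h (levelOne_monomial p.1 p.2).choose else 0

lemma levelOneMonoForm_apply {K : ℤ} {p : ℕ × ℕ} (h : 4 * (p.1 : ℤ) + 6 * (p.2 : ℤ) = K) (z : ℍ) :
    levelOneMonoForm K p z = E₄ z ^ p.1 * E₆ z ^ p.2 := by
  rw [levelOneMonoForm, dif_pos h, coe_mcast]
  exact (levelOne_monomial p.1 p.2).choose_spec.1 z

lemma levelOneMonoForm_qExpansion {K : ℤ} {p : ℕ × ℕ} (h : 4 * (p.1 : ℤ) + 6 * (p.2 : ℤ) = K) :
    qExpansion 1 (levelOneMonoForm K p) = qExpansion 1 E₄ ^ p.1 * qExpansion 1 E₆ ^ p.2 := by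
  rw [levelOneMonoForm, dif_pos h, coe_mcast]
  exact (levelOne_monomial p.1 p.2).choose_spec.2

lemma levelOne_qExpansion_sum {K : ℤ} (s : Finset (ℕ × ℕ)) (x : ℕ × ℕ → ℂ) :
    qExpansion 1 (∑ p ∈ s, x p • levelOneMonoForm K p : ModularForm 𝒮ℒ K)
      = ∑ p ∈ s, x p • qExpansion 1 (levelOneMonoForm K p) := by
  have h := map_sum (qExpansionAddHom one_pos one_mem_strictPeriods_SL K)
    (fun p => x p • levelOneMonoForm K p) s
  simp only [qExpansionAddHom, AddMonoidHom.coe_mk, ZeroHom.coe_mk] at h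
  rw [h]
  refine Finset.sum_congr rfl fun p _ => ?_
  rw [FunLike.coe_smul, ModularForm.qExpansion_smul one_pos one_mem_strictPeriods_SL]

/-- (M2e) conjugates of level one forms. -/
theorem levelOne_conj (σ : ℂ →+* ℂ) (K : ℤ) (F : ModularForm 𝒮ℒ K) :
    ∃ F' : ModularForm 𝒮ℒ K, qExpansion 1 F' = PowerSeries.map σ (qExpansion 1 F) := by
  obtain ⟨s, x, hs, hF⟩ := levelOne_span K F
  have hFeq : F = ∑ p ∈ s, x p • levelOneMonoForm K p := by
    ext z
    rw [hF z]
    have : (∑ p ∈ s, x p • levelOneMonoForm K p : ModularForm 𝒮ℒ K) z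
        = ∑ p ∈ s, (x p • levelOneMonoForm K p) z := by
      simp
    rw [this]
    refine Finset.sum_congr rfl fun p hp => ?_
    rw [smul_apply, levelOneMonoForm_apply (hs p hp), smul_eq_mul]
  refine ⟨∑ p ∈ s, σ (x p) • levelOneMonoForm K p, ?_⟩
  rw [hFeq, levelOne_qExpansion_sum, levelOne_qExpansion_sum, map_sum]
  refine Finset.sum_congr rfl fun p hp => ?_
  rw [levelOneMonoForm_qExpansion (hs p hp), PowerSeries.smul_eq_C_mul, PowerSeries.smul_eq_C_mul,
    map_mul, map_mul, map_pow, map_pow, levelOne_map_E4, levelOne_map_E6, PowerSeries.map_C]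

end Fermat.Agent.S23
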