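import Mathlib

set_option autoImplicit false

open UpperHalfPlane Function
open scoped Manifold MatrixGroups

namespace Fermat.Agent.S23

/-- A function on `ℍ` is *nice* if it is `1`-periodic, holomorphic and bounded at `i∞`. -/
def IsNice (f : ℍ → ℂ) : Prop :=
  Periodic (f ∘ ofComplex) ((1 : ℝ) : ℂ) ∧ MDiff f ∧ IsBoundedAtImInfty f

theorem IsNice.analyticAt {f : ℍ → ℂ} (hf : IsNice f) : AnalyticAt ℂ (cuspFunction 1 f) 0 :=
  analyticAt_cuspFunction_zero one_pos hf.1 hf.2.1 hf.2.2

theorem IsNice.mul {f g : ℍ → ℂ} (hf : IsNice f) (hg : IsNice g) : IsNice (f * g) := by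
  refine ⟨?_, hf.2.1.mul hg.2.1, hf.2.2.mul hg.2.2⟩
  intro w
  have h1 := hf.1 w
  have h2 := hg.1 w
  simp only [comp_apply, Pi.mul_apply] at h1 h2 ⊢
  rw [h1, h2]

theorem IsNice.add {f g : ℍ → ℂ} (hf : IsNice f) (hg : IsNice g) : IsNice (f + g) := by
  refine ⟨?_, hf.2.1.add hg.2.1, hf.2.2.add hg.2.2⟩
  intro w
  have h1 := hf.1 w
  have h2 := hg.1 w
  simp only [comp_apply, Pi.add_apply] at h1 h2 ⊢
  rw [h1, h2]

theorem isNice_const (c : ℂ) : IsNice (fun _ => c) := by
  refine ⟨fun w => rfl, mdifferentiable_const, ?_⟩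
  exact Filter.const_boundedAtFilter _ c

/-- The algebra of nice functions. -/
def niceAlg : Subalgebra ℂ (ℍ → ℂ) where
  carrier := {f | IsNice f}
  mul_mem' := fun hf hg => hf.mul hg
  add_mem' := fun hf hg => hf.add hg
  algebraMap_mem' := fun c => isNice_const c

theorem mem_niceAlg {f : ℍ → ℂ} : f ∈ niceAlg ↔ IsNice f := Iff.rfl

/-- The `q`-expansion as an algebra homomorphism on nice functions. -/
noncomputable def qMap : niceAlg →ₐ[ℂ] PowerSeries ℂ where
  toFun f := qExpansion 1 f.1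
  map_one' := qExpansion_one 1
  map_mul' f g := qExpansion_mul (IsNice.analyticAt f.2) (IsNice.analyticAt g.2)
  map_zero' := qExpansion_zero 1
  map_add' f g := qExpansion_add (IsNice.analyticAt f.2) (IsNice.analyticAt g.2)
  commutes' c := by
    have h : (algebraMap ℂ (ℍ → ℂ) c) = c • (1 : ℍ → ℂ) := by
      ext z; simp
    change qExpansion 1 (algebraMap ℂ (ℍ → ℂ) c) = _
    rw [h, qExpansion_smul (IsNice.analyticAt (f := 1) (isNice_const 1)), qExpansion_one]
    ext n
    simp [PowerSeries.coeff_C, PowerSeries.coeff_one]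

@[simp] theorem qMap_apply (f : niceAlg) : qMap f = qExpansion 1 f.1 := rfl

theorem qMap_injective : Function.Injective qMap := by
  rw [injective_iff_map_eq_zero]
  intro f hf
  have := (qExpansion_eq_zero_iff one_pos f.2.1 f.2.2.1 f.2.2.2).1 hf
  exact Subtype.ext this

/-- Modular forms for a group having `1` as a strict period are nice. -/
theorem isNice_of_modularForm {𝒢 : Subgroup (GL (Fin 2) ℝ)} {k : ℤ} {F : Type*} [FunLike F ℍ ℂ]
    [ModularFormClass F 𝒢 k] (h1 : (1 : ℝ) ∈ 𝒢.strictPeriods) (f : F) : IsNice f := by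
  have : Fact (IsCusp OnePoint.infty 𝒢) := ⟨𝒢.isCusp_of_mem_strictPeriods one_pos h1⟩
  exact ⟨SlashInvariantFormClass.periodic_comp_ofComplex f h1, ModularFormClass.holo f,
    ModularFormClass.bdd_at_infty f⟩

/-- A nice function tends to the constant coefficient of its `q`-expansion at `i∞`. -/
theorem IsNice.tendsto {f : ℍ → ℂ} (hf : IsNice f) :
    Filter.Tendsto f atImInfty (nhds ((qExpansion 1 f).coeff 0)) := by
  rw [qExpansion_coeff_zero one_pos hf.analyticAt hf.1,
    ← cuspFunction_apply_zero one_pos hf.analyticAt hf.1]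
  exact (hf.analyticAt.continuousAt.tendsto.comp (qParam_tendsto_atImInfty one_pos)).congr
    (fun τ => eq_cuspFunction τ one_ne_zero hf.1)

theorem IsNice.isZeroAtImInfty_iff {f : ℍ → ℂ} (hf : IsNice f) :
    IsZeroAtImInfty f ↔ (qExpansion 1 f).coeff 0 = 0 := by
  constructor
  · intro h
    exact tendsto_nhds_unique hf.tendsto h
  · intro h
    have := hf.tendsto
    rwa [h] at this

end Fermat.Agent.S23
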