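import Mathlib

set_option autoImplicit false

open UpperHalfPlane
open scoped Manifold Topology

namespace Fermat.Agent.S23

lemma quot_continuousAt_ofComplex {z : ℂ} (hz : 0 < z.im) : ContinuousAt ofComplex z :=
  (mdifferentiableAt_ofComplex hz).continuousAt

lemma quot_isPreconnected : IsPreconnected {z : ℂ | 0 < z.im} :=
  (convex_halfSpace_im_gt 0).isPreconnected

lemma quot_isOpen : IsOpen {z : ℂ | 0 < z.im} :=
  isOpen_lt continuous_const Complex.continuous_im

/-- zeros of a nonzero holomorphic function on `ℍ` are isolated -/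
lemma quot_eventually_ne (v : ℍ → ℂ) (hv : MDiff v) (hv0 : v ≠ 0) {z₀ : ℂ} (hz₀ : 0 < z₀.im) :
    ∀ᶠ z in 𝓝[≠] z₀, (v ∘ ofComplex) z ≠ 0 := by
  have han : AnalyticOnNhd ℂ (v ∘ ofComplex) {z : ℂ | 0 < z.im} :=
    (UpperHalfPlane.mdifferentiable_iff.mp hv).analyticOnNhd quot_isOpen
  by_contra hcon
  have hfreq : ∃ᶠ z in 𝓝[≠] z₀, (v ∘ ofComplex) z = 0 := by
    rw [Filter.Frequently]
    exact hcon
  have := han.eqOn_zero_of_preconnected_of_frequently_eq_zero quot_isPreconnected hz₀ hfreq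
  apply hv0
  ext τ
  have h1 := this τ.im_pos
  simpa using h1

/-- (M5) Division of holomorphic functions on `ℍ` under a local boundedness hypothesis
(Riemann's removable singularity theorem). -/
theorem quot_exists (u v : ℍ → ℂ) (hu : MDiff u) (hv : MDiff v) (hv0 : v ≠ 0)
    (C : ℍ → ℝ) (hC : Continuous C) (h : ∀ z, ‖u z‖ ≤ C z * ‖v z‖) :
    ∃ F : ℍ → ℂ, MDiff F ∧ ∀ z, F z * v z = u z := by
  set U : Set ℂ := {z : ℂ | 0 < z.im} with hU
  have hUo : IsOpen U := quot_isOpen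
  set u' : ℂ → ℂ := u ∘ ofComplex with hu'
  set v' : ℂ → ℂ := v ∘ ofComplex with hv'
  have hud : DifferentiableOn ℂ u' U := UpperHalfPlane.mdifferentiable_iff.mp hu
  have hvd : DifferentiableOn ℂ v' U := UpperHalfPlane.mdifferentiable_iff.mp hv
  set w : ℂ → ℂ := fun z => u' z / v' z with hw
  set F' : ℂ → ℂ := fun z => Filter.limUnder (𝓝[≠] z) w with hF'
  -- at points where `v' ≠ 0`
  have hwd : ∀ z ∈ U, v' z ≠ 0 → DifferentiableAt ℂ w z := fun z hz hvz =>
    ((hud z hz).differentiableAt (hUo.mem_nhds hz)).div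
      ((hvd z hz).differentiableAt (hUo.mem_nhds hz)) hvz
  have hF'eq : ∀ z ∈ U, v' z ≠ 0 → F' z = w z := fun z hz hvz =>
    ((hwd z hz hvz).continuousAt.tendsto.mono_left nhdsWithin_le_nhds).limUnder_eq
  have hbound : ∀ z ∈ U, v' z ≠ 0 → ‖w z‖ ≤ C (ofComplex z) := by
    intro z hz hvz
    have h1 := h (ofComplex z)
    have hpos : 0 < ‖v' z‖ := norm_pos_iff.mpr hvz
    rw [hw]
    simp only [norm_div]
    rw [div_le_iff₀ hpos]
    exact h1
  have hdiff : ∀ z₀ ∈ U, DifferentiableAt ℂ F' z₀ := by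
    intro z₀ hz₀
    have h1 : ∀ᶠ z in 𝓝[≠] z₀, v' z ≠ 0 := quot_eventually_ne v hv hv0 hz₀
    have h2 : ∀ᶠ z in 𝓝 z₀, C (ofComplex z) < C (ofComplex z₀) + 1 :=
      (hC.continuousAt.comp (quot_continuousAt_ofComplex hz₀)).eventually_lt continuousAt_const
        (by simp)
    have h3 : ∀ᶠ z in 𝓝 z₀, z ∈ U := hUo.mem_nhds hz₀
    rw [eventually_nhdsWithin_iff] at h1
    have h4 := (h1.and (h2.and h3))
    obtain ⟨s, hs, hso, hz₀s⟩ := eventually_nhds_iff.mp h4
    have hsn : s ∈ 𝓝 z₀ := hso.mem_nhds hz₀s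
    have hd : DifferentiableOn ℂ w (s \ {z₀}) := by
      intro z hz
      exact (hwd z (hs z hz.1).2.2 ((hs z hz.1).1 hz.2)).differentiableWithinAt
    have hb : BddAbove (norm ∘ w '' (s \ {z₀})) := by
      refine ⟨C (ofComplex z₀) + 1, ?_⟩
      rintro _ ⟨z, hz, rfl⟩
      exact (hbound z (hs z hz.1).2.2 ((hs z hz.1).1 hz.2)).trans (hs z hz.1).2.1.le
    have hW := Complex.differentiableOn_update_limUnder_of_bddAbove hsn hd hb
    have hWd := (hW z₀ hz₀s).differentiableAt hsn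
    refine hWd.congr_of_eventuallyEq ?_
    filter_upwards [hsn] with z hz
    by_cases hzz : z = z₀
    · subst hzz
      simp [hF']
    · rw [Function.update_of_ne hzz]
      exact hF'eq z (hs z hz).2.2 ((hs z hz).1 hzz)
  refine ⟨fun τ => F' τ, ?_, ?_⟩
  · rw [UpperHalfPlane.mdifferentiable_iff]
    intro z hz
    have : DifferentiableAt ℂ ((fun τ : ℍ => F' τ) ∘ ofComplex) z := by
      refine (hdiff z hz).congr_of_eventuallyEq ?_
      filter_upwards [hUo.mem_nhds hz] with y hy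
      simp [Function.comp, ofComplex_apply_of_im_pos hy]
    exact this.differentiableWithinAt
  · intro τ
    have hτ : (τ : ℂ) ∈ U := τ.im_pos
    have e1 : v' τ = v τ := by simp [hv']
    have e2 : u' τ = u τ := by simp [hu']
    by_cases hvz : v τ = 0
    · have := h τ
      rw [hvz, norm_zero, mul_zero] at this
      rw [hvz, mul_zero, eq_comm, ← norm_eq_zero]
      exact le_antisymm this (norm_nonneg _)
    · have hvz' : v' τ ≠ 0 := by rwa [e1]
      change F' τ * v τ = u τ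
      rw [hF'eq τ hτ hvz', hw]
      simp only [e1, e2]
      field_simp

/-- (M5') zeros of a nonzero holomorphic function on `ℍ` are nowhere dense: two continuous functions
agreeing off the zero set of `v` agree everywhere. -/
theorem quot_eq_of_eq_off_zeros (v : ℍ → ℂ) (hv : MDiff v) (hv0 : v ≠ 0) (a b : ℍ → ℂ)
    (ha : Continuous a) (hb : Continuous b) (h : ∀ z, v z ≠ 0 → a z = b z) : a = b := by
  ext τ
  have hτ : 0 < (τ : ℂ).im := τ.im_pos
  have h1 : ∀ᶠ z in 𝓝[≠] (τ : ℂ), (v ∘ ofComplex) z ≠ 0 := quot_eventually_ne v hv hv0 hτ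
  have h2 : ∀ᶠ z in 𝓝[≠] (τ : ℂ), (a ∘ ofComplex) z = (b ∘ ofComplex) z := by
    filter_upwards [h1] with z hz
    exact h _ hz
  have ca : Filter.Tendsto (a ∘ ofComplex) (𝓝[≠] (τ : ℂ)) (𝓝 ((a ∘ ofComplex) τ)) :=
    ((ha.continuousAt.comp (quot_continuousAt_ofComplex hτ)).tendsto).mono_left nhdsWithin_le_nhds
  have cb : Filter.Tendsto (b ∘ ofComplex) (𝓝[≠] (τ : ℂ)) (𝓝 ((b ∘ ofComplex) τ)) :=
    ((hb.continuousAt.comp (quot_continuousAt_ofComplex hτ)).tendsto).mono_left nhdsWithin_le_nhds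
  have := tendsto_nhds_unique_of_eventuallyEq ca cb h2
  simpa using this

end Fermat.Agent.S23
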