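import Mathlib

set_option autoImplicit false

open Filter Topology Finset

namespace Fermat.Agent.S23

/-- (M6b-1) Cauchy bound for roots of a monic polynomial. -/
theorem rootBound_norm_le (μ : ℕ) (c : ℕ → ℂ) (x : ℂ)
    (h : x ^ μ + ∑ i ∈ range μ, c i * x ^ i = 0) : ‖x‖ ≤ 1 + ∑ i ∈ range μ, ‖c i‖ := by
  have hS : 0 ≤ ∑ i ∈ range μ, ‖c i‖ := Finset.sum_nonneg fun i _ => norm_nonneg _
  by_contra hlt
  push Not at hlt
  have hx1 : 1 < ‖x‖ := by linarith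
  have hx0 : 0 < ‖x‖ := by linarith
  rcases Nat.eq_zero_or_pos μ with rfl | hμ
  · simp at h
  have h1 : x ^ μ = - ∑ i ∈ range μ, c i * x ^ i := eq_neg_of_add_eq_zero_left h
  have h2 : ‖x‖ ^ μ ≤ (∑ i ∈ range μ, ‖c i‖) * ‖x‖ ^ (μ - 1) := by
    rw [← norm_pow, h1, norm_neg, Finset.sum_mul]
    refine (norm_sum_le _ _).trans (Finset.sum_le_sum fun i hi => ?_)
    rw [norm_mul, norm_pow]
    have hi' : i ≤ μ - 1 := by
      have := Finset.mem_range.mp hi
      omega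
    exact mul_le_mul_of_nonneg_left (pow_le_pow_right₀ hx1.le hi') (norm_nonneg _)
  have h3 : ‖x‖ ^ μ = ‖x‖ * ‖x‖ ^ (μ - 1) := by
    rw [← pow_succ']
    congr 1
    omega
  rw [h3] at h2
  have h4 := le_of_mul_le_mul_right h2 (pow_pos hx0 _)
  linarith

/-- (M6b-2) If the lower coefficients of a monic polynomial tend to zero, so do its roots.
(`‖x‖ ≤ B := 1 + ∑ ‖c i‖`, then `‖x‖ ^ μ ≤ (∑ ‖c i‖) * B ^ μ → 0`.) -/
theorem rootBound_tendsto_zero {α : Type*} (l : Filter α) (μ : ℕ) (c : ℕ → α → ℂ) (F : α → ℂ)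
    (hc : ∀ i < μ, Tendsto (c i) l (𝓝 0))
    (h : ∀ a, F a ^ μ + ∑ i ∈ range μ, c i a * F a ^ i = 0) : Tendsto F l (𝓝 0) := by
  rcases Nat.eq_zero_or_pos μ with rfl | hμ
  · have : ∀ a : α, False := fun a => by simpa using h a
    have hl : l = ⊥ := by
      have : IsEmpty α := ⟨this⟩
      exact Filter.filter_eq_bot_of_isEmpty l
    rw [hl]
    exact tendsto_bot
  set S : α → ℝ := fun a => ∑ i ∈ range μ, ‖c i a‖ with hS
  have hS0 : ∀ a, 0 ≤ S a := fun a => Finset.sum_nonneg fun i _ => norm_nonneg _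
  have hSt : Tendsto S l (𝓝 0) := by
    have : Tendsto S l (𝓝 (∑ i ∈ range μ, (0 : ℝ))) :=
      tendsto_finsetSum _ fun i hi => by
        simpa using (hc i (Finset.mem_range.mp hi)).norm
    simpa using this
  have hB : ∀ a, ‖F a‖ ≤ 1 + S a := fun a => rootBound_norm_le μ (fun i => c i a) (F a) (h a)
  have hpow : ∀ a, ‖F a‖ ^ μ ≤ S a * (1 + S a) ^ μ := by
    intro a
    have h1 : F a ^ μ = - ∑ i ∈ range μ, c i a * F a ^ i := eq_neg_of_add_eq_zero_left (h a)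
    rw [← norm_pow, h1, norm_neg, hS, Finset.sum_mul]
    refine (norm_sum_le _ _).trans (Finset.sum_le_sum fun i hi => ?_)
    rw [norm_mul, norm_pow]
    refine mul_le_mul_of_nonneg_left ?_ (norm_nonneg _)
    have h2 : ‖F a‖ ^ i ≤ (1 + S a) ^ i := pow_le_pow_left₀ (norm_nonneg _) (hB a) i
    refine h2.trans (pow_le_pow_right₀ (by linarith [hS0 a]) (Finset.mem_range.mp hi).le)
  have hlim : Tendsto (fun a => S a * (1 + S a) ^ μ) l (𝓝 0) := by
    have := hSt.mul ((tendsto_const_nhds (x := (1 : ℝ))).add hSt |>.pow μ)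
    simpa using this
  have hpow0 : Tendsto (fun a => ‖F a‖ ^ μ) l (𝓝 0) :=
    squeeze_zero (fun a => pow_nonneg (norm_nonneg _) _) hpow hlim
  rw [tendsto_zero_iff_norm_tendsto_zero]
  have h5 : Tendsto (fun a => (‖F a‖ ^ μ) ^ ((μ : ℝ)⁻¹)) l (𝓝 (0 ^ ((μ : ℝ)⁻¹))) :=
    hpow0.rpow_const (Or.inr (by positivity))
  have hμ' : (μ : ℝ)⁻¹ ≠ 0 := by positivity
  rw [Real.zero_rpow hμ'] at h5
  refine h5.congr fun a => ?_
  rw [← Real.rpow_natCast, ← Real.rpow_mul (norm_nonneg _), mul_inv_cancel₀ (by positivity),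
    Real.rpow_one]

end Fermat.Agent.S23
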