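import Mathlib

set_option autoImplicit false

open Polynomial Finset

namespace Fermat.Agent.S23

variable {ι : Type*} [Fintype ι]

/-- the polynomial `∏ (X - r i)` -/
noncomputable def rootPoly (r : ι → ℂ) : Polynomial ℂ := ∏ i, (X - C (r i))

theorem rootPoly_monic (r : ι → ℂ) : (rootPoly r).Monic :=
  monic_prod_of_monic _ _ fun i _ => monic_X_sub_C (r i)

theorem rootPoly_natDegree (r : ι → ℂ) : (rootPoly r).natDegree = Fintype.card ι := by
  rw [rootPoly, natDegree_prod_of_monic _ _ fun i _ => monic_X_sub_C (r i)]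
  simp

theorem rootPoly_eval (r : ι → ℂ) (x : ℂ) : (rootPoly r).eval x = ∏ i, (x - r i) := by
  simp [rootPoly, eval_prod]

theorem rootPoly_eval_self (r : ι → ℂ) (i : ι) : (rootPoly r).eval (r i) = 0 := by
  rw [rootPoly_eval]
  exact Finset.prod_eq_zero (mem_univ i) (sub_self _)

theorem rootPoly_coeff (r : ι → ℂ) {n : ℕ} (hn : n ≤ Fintype.card ι) :
    (rootPoly r).coeff n = (-1) ^ (Fintype.card ι - n) *
      ∑ S ∈ powersetCard (Fintype.card ι - n) univ, ∏ i ∈ S, r i := by
  have h := Multiset.prod_X_sub_C_coeff ((univ : Finset ι).val.map r) (k := n) (by simpa using hn)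
  rw [Multiset.map_map] at h
  simp only [Multiset.card_map, card_val, card_univ, Finset.esymm_map_val] at h
  rw [← h]
  rfl

theorem rootPoly_eq_sum (r : ι → ℂ) (x : ℂ) :
    (rootPoly r).eval x = ∑ n ∈ range (Fintype.card ι + 1), (rootPoly r).coeff n * x ^ n := by
  rw [eval_eq_sum_range, rootPoly_natDegree]

theorem rootPoly_divByMonic [DecidableEq ι] (r : ι → ℂ) (i : ι) :
    rootPoly r /ₘ (X - C (r i)) = ∏ l ∈ univ.erase i, (X - C (r l)) := by
  have h : rootPoly r = (X - C (r i)) * ∏ l ∈ univ.erase i, (X - C (r l)) := by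
    rw [rootPoly, Finset.mul_prod_erase univ (fun l => X - C (r l)) (mem_univ i)]
  rw [h, mul_divByMonic_cancel_left _ (monic_X_sub_C (r i))]

/-- Lagrange-type identity (synthetic division). -/
theorem rootPoly_lagrange [DecidableEq ι] (r s : ι → ℂ) (i₀ : ι) :
    s i₀ * ∏ l ∈ univ.erase i₀, (r i₀ - r l) =
      ∑ n ∈ range (Fintype.card ι), ∑ i ∈ Icc (n + 1) (Fintype.card ι),
        (r i₀) ^ n * ((rootPoly r).coeff i * ∑ l, s l * (r l) ^ (i - (n + 1))) := by
  have hdeg : ∀ l : ι, (rootPoly r /ₘ (X - C (r l))).natDegree < Fintype.card ι := by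
    intro l
    rw [natDegree_divByMonic _ (monic_X_sub_C (r l)), rootPoly_natDegree, natDegree_X_sub_C]
    have : 0 < Fintype.card ι := Fintype.card_pos_iff.2 ⟨l⟩
    omega
  have heval : ∀ l : ι, (rootPoly r /ₘ (X - C (r l))).eval (r i₀) =
      ∑ n ∈ range (Fintype.card ι), ∑ i ∈ Icc (n + 1) (Fintype.card ι),
        (r i₀) ^ n * ((rootPoly r).coeff i * (r l) ^ (i - (n + 1))) := by
    intro l
    rw [eval_eq_sum_range' (hdeg l)]
    refine Finset.sum_congr rfl fun n _ => ?_
    rw [coeff_divByMonic_X_sub_C, rootPoly_natDegree, Finset.sum_mul, ]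
    refine Finset.sum_congr rfl fun i _ => ?_
    ring
  have hzero : ∀ l : ι, l ≠ i₀ → (rootPoly r /ₘ (X - C (r l))).eval (r i₀) = 0 := by
    intro l hl
    rw [rootPoly_divByMonic, eval_prod]
    exact Finset.prod_eq_zero (mem_erase.2 ⟨hl.symm, mem_univ i₀⟩) (by simp)
  have hsum : ∑ l, s l * (rootPoly r /ₘ (X - C (r l))).eval (r i₀) =
      s i₀ * ∏ l ∈ univ.erase i₀, (r i₀ - r l) := by
    rw [Finset.sum_eq_single i₀ (fun l _ hl => by rw [hzero l hl, mul_zero])
      (fun h => absurd (mem_univ i₀) h), rootPoly_divByMonic, eval_prod]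
    simp
  rw [← hsum]
  simp_rw [heval, Finset.mul_sum]
  rw [Finset.sum_comm]
  refine Finset.sum_congr rfl fun n _ => ?_
  rw [Finset.sum_comm]
  refine Finset.sum_congr rfl fun i _ => ?_
  refine Finset.sum_congr rfl fun l _ => ?_
  ring

end Fermat.Agent.S23
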