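import Mathlib
import Fermat.Agent.S23.PolyId

set_option autoImplicit false
set_option linter.unusedSectionVars false

open UpperHalfPlane ModularForm SlashInvariantForm Finset
open scoped MatrixGroups Manifold ModularForm

namespace Fermat.Agent.S23

/-- A holomorphic `SL(2,ℤ)`-invariant function bounded at `i∞` is a level one modular form. -/
theorem sym_levelOne_of_invariant (K : ℤ) (φ : ℍ → ℂ) (hholo : MDiff φ)
    (hinv : ∀ γ : SL(2, ℤ), φ ∣[K] γ = φ) (hbdd : IsBoundedAtImInfty φ) :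
    ∃ F : ModularForm 𝒮ℒ K, ⇑F = φ := by
  refine ⟨{ toFun := φ, slash_action_eq' := ?_, holo' := hholo, bdd_at_cusps' := ?_ }, rfl⟩
  · rintro _ ⟨γ, rfl⟩
    exact hinv γ
  · intro c hc
    rw [OnePoint.isBoundedAt_iff_forall_SL2Z hc]
    intro γ _
    rw [hinv γ]
    exact hbdd

theorem sym_pow_slash (w : ℤ) (g : ℍ → ℂ) (t : ℕ) (γ : SL(2, ℤ)) :
    (g ^ t) ∣[w * t] γ = (g ∣[w] γ) ^ t := by
  induction t with
  | zero =>
    simp only [Nat.cast_zero, mul_zero, pow_zero]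
    exact is_invariant_one γ
  | succ t ih =>
    have e : w * ((t + 1 : ℕ) : ℤ) = w * t + w := by push_cast; ring
    rw [e, pow_succ, mul_slash_SL2, ih, pow_succ]

theorem sym_prod_slash {ι : Type*} (k : ℤ) (Φ : ι → ℍ → ℂ) (S : Finset ι) (γ : SL(2, ℤ)) :
    (∏ i ∈ S, Φ i) ∣[k * #S] γ = ∏ i ∈ S, (Φ i ∣[k] γ) := by
  rw [SL_slash, prod_slash]
  simp [SL_slash]

variable {𝒢 : Subgroup (GL (Fin 2) ℝ)} [𝒢.IsArithmetic] {F : Type*} [FunLike F ℍ ℂ] {k : ℤ}

local notation "𝒬" => 𝒮ℒ ⧸ (𝒢.subgroupOf 𝒮ℒ)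

noncomputable instance sym_fintype : Fintype 𝒬 := Fintype.ofFinite _

/-- the permutation of the cosets induced by `γ`. -/
noncomputable def symPerm (γ : SL(2, ℤ)) : Equiv.Perm 𝒬 :=
  MulAction.toPerm (⟨Matrix.SpecialLinearGroup.mapGL ℝ γ, ⟨γ, rfl⟩⟩⁻¹ : 𝒮ℒ)

theorem sym_qf_slash [SlashInvariantFormClass F 𝒢 k] (f : F) (γ : SL(2, ℤ)) (q : 𝒬) :
    quotientFunc f q ∣[k] γ = quotientFunc f (symPerm γ q) :=
  quotientFunc_smul (ℋ := 𝒮ℒ) f (h := Matrix.SpecialLinearGroup.mapGL ℝ γ)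
    (MonoidHom.mem_range.2 ⟨γ, rfl⟩) q

omit [𝒢.IsArithmetic] in
theorem sym_qf_one [SlashInvariantFormClass F 𝒢 k] (f : F) :
    quotientFunc f (⟦1⟧ : 𝒬) = f := by
  rw [quotientFunc_mk]
  simp

theorem sym_qf_holo [ModularFormClass F 𝒢 k] (f : F) (q : 𝒬) : MDiff (quotientFunc f q) := by
  induction q using Quotient.inductionOn with
  | h r => exact (ModularForm.translate f r.val⁻¹).holo'

theorem sym_qf_bdd [ModularFormClass F 𝒢 k] (f : F) (q : 𝒬) :
    IsBoundedAtImInfty (quotientFunc f q) := by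
  induction q using Quotient.inductionOn with
  | h r =>
    obtain ⟨_, ⟨γ, rfl⟩⟩ := r
    rw [quotientFunc_mk]
    have := ModularFormClass.bdd_at_infty_slash f γ⁻¹
    rw [← map_inv]
    exact this

theorem sym_qf_zero [CuspFormClass F 𝒢 k] (f : F) (q : 𝒬) :
    IsZeroAtImInfty (quotientFunc f q) := by
  induction q using Quotient.inductionOn with
  | h r =>
    obtain ⟨_, ⟨γ, rfl⟩⟩ := r
    rw [quotientFunc_mk]
    have := CuspFormClass.zero_at_infty_slash f γ⁻¹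
    rw [← map_inv]
    exact this

theorem sym_bdd_sum {ι : Type*} (S : Finset ι) (Φ : ι → ℍ → ℂ)
    (h : ∀ i ∈ S, IsBoundedAtImInfty (Φ i)) : IsBoundedAtImInfty (∑ i ∈ S, Φ i) :=
  Finset.sum_induction _ (fun φ : ℍ → ℂ => IsBoundedAtImInfty φ)
    (fun _ _ h1 h2 => Filter.BoundedAtFilter.add h1 h2)
    (Filter.const_boundedAtFilter _ (0 : ℂ)) h

theorem sym_zero_sum {ι : Type*} (S : Finset ι) (Φ : ι → ℍ → ℂ)
    (h : ∀ i ∈ S, IsZeroAtImInfty (Φ i)) : IsZeroAtImInfty (∑ i ∈ S, Φ i) :=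
  Finset.sum_induction _ (fun φ : ℍ → ℂ => IsZeroAtImInfty φ)
    (fun _ _ h1 h2 => Filter.ZeroAtFilter.add h1 h2)
    (Filter.zero_zeroAtFilter _) h

variable {F' : Type*} [FunLike F' ℍ ℂ] {w : ℤ}

/-- The trace of `f * G ^ t`, as a function. -/
noncomputable def symTr [SlashInvariantFormClass F 𝒢 k] [SlashInvariantFormClass F' 𝒢 w]
    (f : F) (G : F') (t : ℕ) : ℍ → ℂ :=
  ∑ q : 𝒬, quotientFunc f q * (quotientFunc G q) ^ t

theorem symTr_apply [SlashInvariantFormClass F 𝒢 k] [SlashInvariantFormClass F' 𝒢 w]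
    (f : F) (G : F') (t : ℕ) (z : ℍ) :
    symTr f G t z = ∑ q : 𝒬, quotientFunc f q z * (quotientFunc G q z) ^ t := by
  simp [symTr, Finset.sum_apply]

theorem symTr_isMF [ModularFormClass F 𝒢 k] [ModularFormClass F' 𝒢 w] (f : F) (G : F') (t : ℕ) :
    ∃ T : ModularForm 𝒮ℒ (k + w * t), ⇑T = symTr f G t := by
  apply sym_levelOne_of_invariant
  · exact MDifferentiable.sum fun q _ => (sym_qf_holo f q).mul ((sym_qf_holo G q).pow t)
  · intro γ
    rw [symTr, SlashAction.sum_slash]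
    simp_rw [mul_slash_SL2, sym_pow_slash, sym_qf_slash]
    exact Equiv.sum_comp (symPerm γ) fun q => quotientFunc f q * (quotientFunc G q) ^ t
  · refine sym_bdd_sum _ _ fun q _ => (sym_qf_bdd f q).mul ?_
    have := Filter.BoundedAtFilter.prod (Finset.range t) (f := fun _ => quotientFunc G q)
      (l := atImInfty) fun _ _ => sym_qf_bdd G q
    simpa using this

/-- Elementary symmetric functions of the conjugates. -/
noncomputable def symE [SlashInvariantFormClass F 𝒢 k] (f : F) (j : ℕ) : ℍ → ℂ :=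
  ∑ S ∈ powersetCard j (univ : Finset 𝒬), ∏ q ∈ S, quotientFunc f q

theorem symE_apply [SlashInvariantFormClass F 𝒢 k] (f : F) (j : ℕ) (z : ℍ) :
    symE f j z = ∑ S ∈ powersetCard j (univ : Finset 𝒬), ∏ q ∈ S, quotientFunc f q z := by
  simp [symE, Finset.sum_apply, Finset.prod_apply]

theorem sym_sum_powersetCard_perm {ι M : Type*} [Fintype ι] [CommRing M] (π : Equiv.Perm ι)
    (Φ : ι → M) (j : ℕ) :
    ∑ S ∈ powersetCard j (univ : Finset ι), ∏ q ∈ S, Φ (π q) =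
      ∑ S ∈ powersetCard j (univ : Finset ι), ∏ q ∈ S, Φ q := by
  have h1 : powersetCard j (univ : Finset ι) =
      (powersetCard j univ).map (mapEmbedding π.toEmbedding).toEmbedding := by
    rw [← powersetCard_map, map_univ_equiv]
  conv_rhs => rw [h1, sum_map]
  refine sum_congr rfl fun S _ => ?_
  simp [mapEmbedding_apply, prod_map]

theorem symE_isMF [ModularFormClass F 𝒢 k] (f : F) (j : ℕ) :
    ∃ E : ModularForm 𝒮ℒ (k * j), ⇑E = symE f j := by
  apply sym_levelOne_of_invariant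
  · exact MDifferentiable.sum fun S _ => MDifferentiable.prod fun q _ => sym_qf_holo f q
  · intro γ
    rw [symE, SlashAction.sum_slash]
    have : ∀ S ∈ powersetCard j (univ : Finset 𝒬), (∏ q ∈ S, quotientFunc f q) ∣[k * j] γ =
        ∏ q ∈ S, quotientFunc f (symPerm γ q) := by
      intro S hS
      rw [← (mem_powersetCard.1 hS).2, sym_prod_slash]
      simp_rw [sym_qf_slash]
    rw [Finset.sum_congr rfl this]
    exact sym_sum_powersetCard_perm (symPerm γ) (fun q => quotientFunc f q) j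
  · exact sym_bdd_sum _ _ fun S _ => Filter.BoundedAtFilter.prod S fun q _ => sym_qf_bdd f q

theorem symE_zero [CuspFormClass F 𝒢 k] (f : F) {j : ℕ} (hj : j ≠ 0) :
    IsZeroAtImInfty (symE f j) := by
  refine sym_zero_sum _ _ fun S hS => ?_
  have hcard : #S = j := (mem_powersetCard.1 hS).2
  have h := tendsto_finsetProd S (fun q _ => sym_qf_zero f q)
  rw [Finset.prod_const, hcard, zero_pow hj] at h
  have e : (fun z => ∏ q ∈ S, quotientFunc f q z) = ∏ q ∈ S, quotientFunc f q := by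
    ext z; simp [Finset.prod_apply]
  rw [e] at h
  exact h

/-- The index. -/
noncomputable def symIndex (𝒢 : Subgroup (GL (Fin 2) ℝ)) [𝒢.IsArithmetic] : ℕ :=
  Fintype.card (𝒮ℒ ⧸ (𝒢.subgroupOf 𝒮ℒ))

/-- The coefficients of the characteristic polynomial are level one modular forms. -/
theorem sym_charCoeff_isMF [ModularFormClass F 𝒢 k] (f : F) {i : ℕ} (hi : i ≤ symIndex 𝒢) :
    ∃ A : ModularForm 𝒮ℒ (k * ((symIndex 𝒢 - i : ℕ) : ℤ)),
      ∀ z, A z = (rootPoly fun q : 𝒬 => quotientFunc f q z).coeff i := by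
  obtain ⟨E, hE⟩ := symE_isMF f (symIndex 𝒢 - i)
  refine ⟨((-1 : ℂ) ^ (symIndex 𝒢 - i)) • E, fun z => ?_⟩
  rw [rootPoly_coeff _ hi, ← symE_apply]
  change (-1 : ℂ) ^ (symIndex 𝒢 - i) * E z = (-1 : ℂ) ^ (symIndex 𝒢 - i) * symE f (symIndex 𝒢 - i) z
  rw [hE]

theorem sym_charCoeff_zero [CuspFormClass F 𝒢 k] (f : F) {i : ℕ} (hi : i < symIndex 𝒢) :
    IsZeroAtImInfty (fun z => (rootPoly fun q : 𝒬 => quotientFunc f q z).coeff i) := by
  have h := symE_zero f (j := symIndex 𝒢 - i) (by omega)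
  have e : (fun z => (rootPoly fun q : 𝒬 => quotientFunc f q z).coeff i) =
      ((-1 : ℂ) ^ (symIndex 𝒢 - i)) • symE f (symIndex 𝒢 - i) := by
    ext z
    rw [rootPoly_coeff _ hi.le, ← symE_apply]
    rfl
  rw [e]
  exact Filter.ZeroAtFilter.smul _ h

end Fermat.Agent.S23
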