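import Mathlib
import Fermat.Agent.S23.Sym
import Fermat.Agent.S23.Quot
import Fermat.Agent.S23.RootBound

set_option autoImplicit false

open UpperHalfPlane ModularForm Finset
open scoped MatrixGroups Manifold ModularForm

namespace Fermat.Agent.S23

/-- From the homogeneous integrality relation between `u` and `v`, get the quotient `F = u / v`
as a holomorphic function satisfying the monic relation. -/
theorem quotRel_exists (μ : ℕ) (u v : ℍ → ℂ) (c : ℕ → ℍ → ℂ) (hu : MDiff u) (hv : MDiff v)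
    (hv0 : v ≠ 0) (hc : ∀ i < μ, Continuous (c i))
    (hY : ∀ z, u z ^ μ + ∑ i ∈ range μ, c i z * u z ^ i * v z ^ (μ - i) = 0) :
    ∃ F : ℍ → ℂ, MDiff F ∧ (∀ z, F z * v z = u z) ∧
      ∀ z, F z ^ μ + ∑ i ∈ range μ, c i z * F z ^ i = 0 := by
  have key : ∀ z, v z ≠ 0 → ∀ x : ℂ, x * v z = u z →
      x ^ μ + ∑ i ∈ range μ, c i z * x ^ i = 0 := by
    intro z hz x hx
    have h1 : (x ^ μ + ∑ i ∈ range μ, c i z * x ^ i) * v z ^ μ = 0 := by
      rw [← hY z, add_mul, Finset.sum_mul, ← hx, mul_pow]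
      congr 1
      refine Finset.sum_congr rfl fun i hi => ?_
      have hi' : i ≤ μ := (mem_range.1 hi).le
      have : v z ^ μ = v z ^ i * v z ^ (μ - i) := by rw [← pow_add, Nat.add_sub_cancel' hi']
      rw [this, mul_pow]
      ring
    exact (mul_eq_zero.1 h1).resolve_right (pow_ne_zero _ hz)
  have hbound : ∀ z, ‖u z‖ ≤ (1 + ∑ i ∈ range μ, ‖c i z‖) * ‖v z‖ := by
    intro z
    by_cases hz : v z = 0
    · have h1 := hY z
      have h2 : ∑ i ∈ range μ, c i z * u z ^ i * v z ^ (μ - i) = 0 := by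
        refine Finset.sum_eq_zero fun i hi => ?_
        have : μ - i ≠ 0 := by have := mem_range.1 hi; omega
        rw [hz, zero_pow this, mul_zero]
      rw [h2, add_zero] at h1
      have h3 : u z = 0 := pow_eq_zero_iff (n := μ) (by
        rintro rfl
        simp at h1) |>.1 h1
      rw [h3, hz]; simp
    · have h1 := key z hz (u z / v z) (div_mul_cancel₀ _ hz)
      have h2 := rootBound_norm_le μ (fun i => c i z) _ h1
      rw [norm_div, div_le_iff₀ (norm_pos_iff.2 hz)] at h2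
      exact h2
  have hCcont : Continuous fun z => 1 + ∑ i ∈ range μ, ‖c i z‖ :=
    continuous_const.add (continuous_finsetSum _ fun i hi => (hc i (mem_range.1 hi)).norm)
  obtain ⟨F, hF, hFv⟩ := quot_exists u v hu hv hv0 _ hCcont hbound
  refine ⟨F, hF, hFv, ?_⟩
  have hFc : Continuous F := hF.continuous
  have := quot_eq_of_eq_off_zeros v hv hv0 (fun z => F z ^ μ + ∑ i ∈ range μ, c i z * F z ^ i) 0
    ((hFc.pow μ).add (continuous_finsetSum _ fun i hi =>
      (hc i (mem_range.1 hi)).mul (hFc.pow i))) continuous_const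
    (fun z hz => key z hz (F z) (hFv z))
  exact fun z => congrFun this z

/-- invariance of the quotient -/
theorem quotRel_inv (F u v : ℍ → ℂ) (hF : MDiff F) (hv : MDiff v) (hv0 : v ≠ 0)
    (hFv : ∀ z, F z * v z = u z) (γ : SL(2, ℤ)) (k w : ℤ) (hu : u ∣[k + w] γ = u)
    (hvγ : v ∣[w] γ = v) : F ∣[k] γ = F := by
  have e : F * v = u := funext hFv
  have h1 : (F ∣[k] γ) * v = F * v := by
    rw [e]
    conv_rhs => rw [← hu, ← e, mul_slash_SL2, hvγ]
  refine quot_eq_of_eq_off_zeros v hv hv0 _ _ ?_ hF.continuous fun z hz => ?_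
  · rw [SL_slash]
    exact (hF.slash k _).continuous
  · have := congrFun h1 z
    simp only [Pi.mul_apply] at this
    exact mul_right_cancel₀ hz this

/-- the monic relation is preserved under the slash action of `SL(2,ℤ)`. -/
theorem quotRel_slash (μ : ℕ) (k : ℤ) (F : ℍ → ℂ) (c : ℕ → ℍ → ℂ) (γ : SL(2, ℤ))
    (hc : ∀ i < μ, c i ∣[k * ((μ - i : ℕ) : ℤ)] γ = c i)
    (h : ∀ z, F z ^ μ + ∑ i ∈ range μ, c i z * F z ^ i = 0) (z : ℍ) :
    (F ∣[k] γ) z ^ μ + ∑ i ∈ range μ, c i z * (F ∣[k] γ) z ^ i = 0 := by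
  have e : F ^ μ + ∑ i ∈ range μ, c i * F ^ i = 0 := by
    ext z
    simpa [Finset.sum_apply] using h z
  have h1 : (F ^ μ + ∑ i ∈ range μ, c i * F ^ i) ∣[k * μ] γ = 0 := by
    rw [e, SlashAction.zero_slash]
  rw [SlashAction.add_slash, SlashAction.sum_slash, sym_pow_slash] at h1
  have h2 : ∀ i ∈ range μ, (c i * F ^ i) ∣[k * μ] γ = c i * (F ∣[k] γ) ^ i := by
    intro i hi
    have hi' := mem_range.1 hi
    have : k * (μ : ℤ) = k * ((μ - i : ℕ) : ℤ) + k * i := by
      rw [Nat.cast_sub hi'.le]; ring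
    rw [this, mul_slash_SL2, sym_pow_slash, hc i hi']
  rw [Finset.sum_congr rfl h2] at h1
  have := congrFun h1 z
  simpa [Finset.sum_apply] using this

end Fermat.Agent.S23
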