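import Mathlib
import Fermat.Agent.S23.Nice
import Fermat.Agent.S23.Sym
import Fermat.Agent.S23.Quot
import Fermat.Agent.S23.LevelOne
import Fermat.Agent.S23.RootBound
import Fermat.Agent.S23.QuotRel

set_option autoImplicit false

open UpperHalfPlane ModularForm SlashInvariantForm Finset
open scoped MatrixGroups Manifold ModularForm

namespace Fermat.Agent.S23

/-- `φ'` is a nice function whose `q`-expansion is the `σ`-conjugate of that of `φ`. -/
structure QPair (σ : ℂ →+* ℂ) (φ φ' : ℍ → ℂ) : Prop where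
  nice : IsNice φ
  nice' : IsNice φ'
  qexp : qExpansion 1 φ' = PowerSeries.map σ (qExpansion 1 φ)

namespace QPair

variable {σ : ℂ →+* ℂ} {φ φ' ψ ψ' : ℍ → ℂ}

theorem mul (h1 : QPair σ φ φ') (h2 : QPair σ ψ ψ') : QPair σ (φ * ψ) (φ' * ψ') where
  nice := h1.nice.mul h2.nice
  nice' := h1.nice'.mul h2.nice'
  qexp := by
    rw [qExpansion_mul h1.nice'.analyticAt h2.nice'.analyticAt,
      qExpansion_mul h1.nice.analyticAt h2.nice.analyticAt, h1.qexp, h2.qexp, map_mul]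

theorem add (h1 : QPair σ φ φ') (h2 : QPair σ ψ ψ') : QPair σ (φ + ψ) (φ' + ψ') where
  nice := h1.nice.add h2.nice
  nice' := h1.nice'.add h2.nice'
  qexp := by
    rw [qExpansion_add h1.nice'.analyticAt h2.nice'.analyticAt,
      qExpansion_add h1.nice.analyticAt h2.nice.analyticAt, h1.qexp, h2.qexp, map_add]

theorem zero : QPair σ 0 0 where
  nice := isNice_const 0
  nice' := isNice_const 0
  qexp := by rw [qExpansion_zero, map_zero]

theorem one : QPair σ 1 1 where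
  nice := isNice_const 1
  nice' := isNice_const 1
  qexp := by rw [qExpansion_one, map_one]

theorem pow (h1 : QPair σ φ φ') (t : ℕ) : QPair σ (φ ^ t) (φ' ^ t) := by
  induction t with
  | zero => simpa using one
  | succ t ih => simpa [pow_succ] using ih.mul h1

theorem sum {ι : Type*} (S : Finset ι) (Φ Φ' : ι → ℍ → ℂ) (h : ∀ i ∈ S, QPair σ (Φ i) (Φ' i)) :
    QPair σ (∑ i ∈ S, Φ i) (∑ i ∈ S, Φ' i) := by
  classical
  induction S using Finset.induction_on with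
  | empty => simpa using zero
  | insert a S ha ih =>
    rw [Finset.sum_insert ha, Finset.sum_insert ha]
    exact (h a (mem_insert_self a S)).add (ih fun i hi => h i (mem_insert_of_mem hi))

/-- if `φ = 0` then `φ' = 0` -/
theorem eq_zero (h : QPair σ φ φ') (h0 : φ = 0) : φ' = 0 := by
  have := h.qexp
  rw [h0, qExpansion_zero, map_zero] at this
  exact (qExpansion_eq_zero_iff one_pos h.nice'.1 h.nice'.2.1 h.nice'.2.2).1 this

/-- if `φ ≠ 0` then `φ' ≠ 0` -/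
theorem ne_zero (h : QPair σ φ φ') (h0 : φ ≠ 0) : φ' ≠ 0 := by
  intro h1
  apply h0
  have := h.qexp
  rw [h1, qExpansion_zero] at this
  have h2 : qExpansion 1 φ = 0 := by
    have hinj : Function.Injective (PowerSeries.map σ) := PowerSeries.map_injective σ σ.injective
    exact hinj (by rw [← this, map_zero])
  exact (qExpansion_eq_zero_iff one_pos h.nice.1 h.nice.2.1 h.nice.2.2).1 h2

end QPair

/-- invariance of weight `K` under a subgroup of `SL(2,ℤ)` -/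
def IsInv (Γ : Subgroup SL(2, ℤ)) (K : ℤ) (φ : ℍ → ℂ) : Prop := ∀ γ ∈ Γ, φ ∣[K] γ = φ

namespace IsInv

variable {Γ : Subgroup SL(2, ℤ)} {K K' : ℤ} {φ ψ : ℍ → ℂ}

theorem mul (h1 : IsInv Γ K φ) (h2 : IsInv Γ K' ψ) : IsInv Γ (K + K') (φ * ψ) := by
  intro γ hγ
  rw [mul_slash_SL2, h1 γ hγ, h2 γ hγ]

theorem pow (h1 : IsInv Γ K φ) (t : ℕ) : IsInv Γ (K * t) (φ ^ t) := by
  intro γ hγ
  rw [sym_pow_slash, h1 γ hγ]

theorem sum {ι : Type*} (S : Finset ι) (Φ : ι → ℍ → ℂ) (h : ∀ i ∈ S, IsInv Γ K (Φ i)) :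
    IsInv Γ K (∑ i ∈ S, Φ i) := by
  intro γ hγ
  rw [SlashAction.sum_slash]
  exact Finset.sum_congr rfl fun i hi => h i hi γ hγ

theorem of_levelOne (F : ModularForm 𝒮ℒ K) : IsInv Γ K F := by
  intro γ _
  exact SlashInvariantForm.slash_action_eqn F _ ⟨γ, rfl⟩

theorem cast (h : IsInv Γ K φ) (e : K = K') : IsInv Γ K' φ := e ▸ h

end IsInv

theorem conj_levelOne (σ : ℂ →+* ℂ) (Γ : Subgroup SL(2, ℤ)) (K : ℤ) (F : ModularForm 𝒮ℒ K) :
    ∃ F' : ModularForm 𝒮ℒ K, QPair σ F F' ∧ IsInv Γ K F' := by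
  obtain ⟨F', hF'⟩ := levelOne_conj σ K F
  exact ⟨F', ⟨isNice_of_modularForm one_mem_strictPeriods_SL F,
    isNice_of_modularForm one_mem_strictPeriods_SL F', hF'⟩, IsInv.of_levelOne F'⟩

section main

variable {Γ : Subgroup SL(2, ℤ)} [Γ.FiniteIndex] {w k : ℤ}

local notation "𝒢" => Subgroup.map (Matrix.SpecialLinearGroup.mapGL ℝ) Γ
local notation "𝒬" => 𝒮ℒ ⧸ (Subgroup.subgroupOf 𝒢 𝒮ℒ)
local notation "μ" => symIndex 𝒢

open scoped Classical in
/-- The denominator `∏_{q ≠ 1} (G - G_q)`. -/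
noncomputable def conjDen (G : ModularForm 𝒢 w) : ℍ → ℂ :=
  ∏ l ∈ (univ : Finset 𝒬).erase ⟦1⟧, (⇑G - quotientFunc G l)

theorem conjDen_ne_zero (G : ModularForm 𝒢 w) (hG : ∀ γ : SL(2, ℤ), (⇑G) ∣[w] γ = ⇑G → γ ∈ Γ) :
    conjDen G ≠ 0 := by
  classical
  intro h0
  rw [conjDen, UpperHalfPlane.prod_eq_zero_iff
    (fun l _ => (ModularFormClass.holo G).sub (sym_qf_holo G l))] at h0
  obtain ⟨l, hl, hl0⟩ := h0
  apply (mem_erase.1 hl).1
  induction l using Quotient.inductionOn with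
  | h r =>
    obtain ⟨_, ⟨γ, rfl⟩⟩ := r
    rw [quotientFunc_mk, ← map_inv] at hl0
    have h1 : (⇑G) ∣[w] γ⁻¹ = ⇑G := (sub_eq_zero.1 hl0).symm
    have h2 := hG _ h1
    refine QuotientGroup.eq.2 ?_
    rw [Subgroup.mem_subgroupOf]
    refine ⟨γ⁻¹, h2, ?_⟩
    simp

theorem conj_lagrange {F : Type*} [FunLike F ℍ ℂ] [ModularFormClass F 𝒢 k] (f : F)
    (G : ModularForm 𝒢 w) (z : ℍ) :
    f z * conjDen G z = ∑ n ∈ range μ, ∑ i ∈ Icc (n + 1) μ,
      G z ^ n * ((rootPoly fun q : 𝒬 => quotientFunc G q z).coeff i *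
        symTr f G (i - (n + 1)) z) := by
  classical
  have h := rootPoly_lagrange (fun q : 𝒬 => quotientFunc G q z) (fun q : 𝒬 => quotientFunc f q z) ⟦1⟧
  simp only [sym_qf_one] at h
  simp only [symTr_apply]
  refine Eq.trans ?_ h
  rw [conjDen]
  simp [Finset.prod_apply]

omit [Γ.FiniteIndex] in
theorem conj_isInv_of_form (G : ModularForm 𝒢 w) : IsInv Γ w G := by
  intro γ hγ
  exact SlashInvariantForm.slash_action_eqn G _ ⟨γ, hγ, rfl⟩

/-- The numerator `f * conjDen G` has a `σ`-conjugate. -/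
theorem conj_exists_num {F : Type*} [FunLike F ℍ ℂ] [ModularFormClass F 𝒢 k] (σ : ℂ →+* ℂ)
    (G : ModularForm 𝒢 w) (hG : QPair σ G G) (f : F) :
    ∃ u' : ℍ → ℂ, QPair σ (⇑f * conjDen G) u' ∧ IsInv Γ (k + w * ((μ : ℤ) - 1)) u' := by
  have hA : ∀ i : ℕ, ∃ A A' : ℍ → ℂ, i ≤ μ →
      ((∀ z, A z = (rootPoly fun q : 𝒬 => quotientFunc G q z).coeff i) ∧ QPair σ A A' ∧
        IsInv Γ (w * ((μ - i : ℕ) : ℤ)) A') := by
    intro i
    by_cases hi : i ≤ μ
    · obtain ⟨A, hA⟩ := sym_charCoeff_isMF G hi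
      obtain ⟨A', h1, h2⟩ := conj_levelOne σ Γ _ A
      exact ⟨A, A', fun _ => ⟨hA, h1, h2⟩⟩
    · exact ⟨0, 0, fun h => absurd h hi⟩
  choose A A' hAA using hA
  have hT : ∀ t : ℕ, ∃ T' : ℍ → ℂ, QPair σ (symTr f G t) T' ∧ IsInv Γ (k + w * t) T' := by
    intro t
    obtain ⟨T, hT⟩ := symTr_isMF f G t
    obtain ⟨T', h1, h2⟩ := conj_levelOne σ Γ _ T
    exact ⟨T', hT ▸ h1, h2⟩
  choose T' hT1 hT2 using hT
  have e : ⇑f * conjDen G = ∑ n ∈ range μ, ∑ i ∈ Icc (n + 1) μ,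
      (⇑G) ^ n * (A i * symTr f G (i - (n + 1))) := by
    ext z
    simp only [Pi.mul_apply, Finset.sum_apply, Pi.pow_apply]
    rw [conj_lagrange]
    refine Finset.sum_congr rfl fun n _ => Finset.sum_congr rfl fun i hi => ?_
    rw [(hAA i (mem_Icc.1 hi).2).1 z]
  refine ⟨∑ n ∈ range μ, ∑ i ∈ Icc (n + 1) μ, (⇑G) ^ n * (A' i * T' (i - (n + 1))), ?_, ?_⟩
  · rw [e]
    refine QPair.sum _ _ _ fun n _ => QPair.sum _ _ _ fun i hi => ?_
    exact (hG.pow n).mul ((hAA i (mem_Icc.1 hi).2).2.1.mul (hT1 _))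
  · refine IsInv.sum _ _ fun n _ => IsInv.sum _ _ fun i hi => ?_
    have hi1 := (mem_Icc.1 hi).1
    have hi2 := (mem_Icc.1 hi).2
    refine (((conj_isInv_of_form G).pow n).mul ((hAA i hi2).2.2.mul (hT2 _))).cast ?_
    rw [Nat.cast_sub hi2, Nat.cast_sub hi1]
    push_cast
    ring

/-- **σ-stability**: the `σ`-conjugate of the `q`-expansion of a cusp form is the `q`-expansion of a
cusp form. -/
theorem conj_exists (σ : ℂ →+* ℂ) (h1 : (1 : ℝ) ∈ (𝒢).strictPeriods) (G : ModularForm 𝒢 w)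
    (hGσ : QPair σ G G) (hG : ∀ γ : SL(2, ℤ), (⇑G) ∣[w] γ = ⇑G → γ ∈ Γ) (f : CuspForm 𝒢 k) :
    ∃ f' : CuspForm 𝒢 k, qExpansion 1 f' = PowerSeries.map σ (qExpansion 1 f) := by
  obtain ⟨u', hu, hui⟩ := conj_exists_num σ G hGσ f
  obtain ⟨v', hv, hvi⟩ := conj_exists_num σ G hGσ (1 : ModularForm 𝒢 0)
  have e1 : ⇑(1 : ModularForm 𝒢 0) * conjDen G = conjDen G := by
    ext z; simp
  rw [e1] at hv
  rw [zero_add] at hvi
  have hv0 : v' ≠ 0 := hv.ne_zero (conjDen_ne_zero G hG)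
  -- the coefficients of the characteristic polynomial of `f`
  have hC : ∀ i : ℕ, ∃ c c' : ℍ → ℂ, i < μ →
      ((∀ z, c z = (rootPoly fun q : 𝒬 => quotientFunc f q z).coeff i) ∧ QPair σ c c' ∧
        (∀ γ : SL(2, ℤ), c' ∣[k * ((μ - i : ℕ) : ℤ)] γ = c') ∧ IsZeroAtImInfty c') := by
    intro i
    by_cases hi : i < μ
    · obtain ⟨A, hA⟩ := sym_charCoeff_isMF f hi.le
      obtain ⟨A', h1, h2⟩ := conj_levelOne σ ⊤ _ A
      refine ⟨A, A', fun _ => ⟨hA, h1, fun γ => h2 γ (Subgroup.mem_top γ), ?_⟩⟩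
      rw [h1.nice'.isZeroAtImInfty_iff, h1.qexp, PowerSeries.coeff_map]
      have h3 : IsZeroAtImInfty A := by
        have := sym_charCoeff_zero f hi
        have e : (fun z => (rootPoly fun q : 𝒬 => quotientFunc f q z).coeff i) = ⇑A :=
          funext fun z => (hA z).symm
        rwa [e] at this
      rw [(h1.nice.isZeroAtImInfty_iff).1 h3, map_zero]
    · exact ⟨0, 0, fun h => absurd h hi⟩
  choose c c' hcc using hC
  -- the relation
  have hrel : ∀ z, f z ^ μ + ∑ i ∈ range μ, c i z * f z ^ i = 0 := by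
    intro z
    have h2 := rootPoly_eval_self (fun q : 𝒬 => quotientFunc f q z) ⟦1⟧
    rw [rootPoly_eq_sum, Finset.sum_range_succ] at h2
    simp only [sym_qf_one] at h2
    have h3 : (rootPoly fun q : 𝒬 => quotientFunc f q z).coeff (Fintype.card 𝒬) = 1 := by
      have := (rootPoly_monic fun q : 𝒬 => quotientFunc f q z).coeff_natDegree
      rwa [rootPoly_natDegree] at this
    rw [h3, one_mul, add_comm] at h2
    rw [← h2]
    congr 1
    exact Finset.sum_congr rfl fun i hi => by rw [(hcc i (mem_range.1 hi)).1 z]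
  have hY : (⇑f * conjDen G) ^ μ +
      ∑ i ∈ range μ, c i * (⇑f * conjDen G) ^ i * (conjDen G) ^ (μ - i) = 0 := by
    ext z
    simp only [Pi.add_apply, Pi.pow_apply, Pi.mul_apply, Finset.sum_apply, Pi.zero_apply]
    have : (f z * conjDen G z) ^ μ +
        ∑ i ∈ range μ, c i z * (f z * conjDen G z) ^ i * conjDen G z ^ (μ - i) =
        (f z ^ μ + ∑ i ∈ range μ, c i z * f z ^ i) * conjDen G z ^ μ := by
      rw [add_mul, Finset.sum_mul, mul_pow]
      congr 1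
      refine Finset.sum_congr rfl fun i hi => ?_
      have hi' : i ≤ μ := (mem_range.1 hi).le
      have : conjDen G z ^ μ = conjDen G z ^ i * conjDen G z ^ (μ - i) := by
        rw [← pow_add, Nat.add_sub_cancel' hi']
      rw [this, mul_pow]
      ring
    rw [this, hrel z, zero_mul]
  have hY' : u' ^ μ + ∑ i ∈ range μ, c' i * u' ^ i * v' ^ (μ - i) = 0 := by
    refine QPair.eq_zero (σ := σ) ?_ hY
    exact (hu.pow μ).add (QPair.sum _ _ _ fun i hi =>
      ((hcc i (mem_range.1 hi)).2.1.mul (hu.pow i)).mul (hv.pow _))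
  obtain ⟨F', hF', hFv, hFrel⟩ := quotRel_exists μ u' v' c' hu.nice'.2.1 hv.nice'.2.1 hv0
    (fun i hi => (hcc i hi).2.1.nice'.2.1.continuous) (fun z => by
      have := congrFun hY' z
      simpa [Finset.sum_apply] using this)
  have hFinv : ∀ γ ∈ Γ, F' ∣[k] γ = F' := fun γ hγ =>
    quotRel_inv F' u' v' hF' hv.nice'.2.1 hv0 hFv γ k _ (hui γ hγ) (hvi γ hγ)
  have hFzero : ∀ γ : SL(2, ℤ), IsZeroAtImInfty (F' ∣[k] γ) := fun γ =>
    rootBound_tendsto_zero atImInfty μ c' _ (fun i hi => (hcc i hi).2.2.2)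
      (quotRel_slash μ k F' c' γ (fun i hi => (hcc i hi).2.2.1 γ) hFrel)
  let f' : CuspForm 𝒢 k :=
    { toFun := F'
      slash_action_eq' := by
        rintro _ ⟨γ, hγ, rfl⟩
        exact hFinv γ hγ
      holo' := hF'
      zero_at_cusps' := by
        intro c hc
        rw [Subgroup.IsArithmetic.isCusp_iff_isCusp_SL2Z] at hc
        rw [OnePoint.isZeroAt_iff_forall_SL2Z hc]
        exact fun γ _ => hFzero γ }
  refine ⟨f', ?_⟩
  have hf'n : IsNice f' := isNice_of_modularForm h1 f'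
  have hfn : IsNice f := isNice_of_modularForm h1 f
  have e2 : (⇑f' : ℍ → ℂ) * v' = u' := funext hFv
  have h2 : qExpansion 1 f' * qExpansion 1 v' =
      PowerSeries.map σ (qExpansion 1 f) * qExpansion 1 v' := by
    rw [← qExpansion_mul hf'n.analyticAt hv.nice'.analyticAt, e2, hu.qexp,
      qExpansion_mul hfn.analyticAt hv.nice.analyticAt, map_mul, hv.qexp]
  refine mul_right_cancel₀ ?_ h2
  intro h3
  exact hv0 ((qExpansion_eq_zero_iff one_pos hv.nice'.1 hv.nice'.2.1 hv.nice'.2.2).1 h3)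

end main

end Fermat.Agent.S23
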