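import Mathlib
import Fermat.Prelude.Def_CuspForm_IntegralStructure
import Fermat.Prelude.Def_ModularForm_HeckeOperator
import Fermat.Agent.S23.LevelOne

set_option autoImplicit false
set_option linter.unusedSimpArgs false

open UpperHalfPlane ModularForm EisensteinSeries
open scoped MatrixGroups ModularForm Topology

namespace Fermat.Agent.S23

/-- `E₄ → 1` at `i∞`. -/
lemma gForm_tendsto_E4 : Filter.Tendsto (⇑E₄ : ℍ → ℂ) atImInfty (𝓝 1) := by
  have h1 := (ModularFormClass.analyticAt_cuspFunction_zero E₄ one_pos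
    one_mem_strictPeriods_SL).continuousAt.tendsto.comp (qParam_tendsto_atImInfty one_pos)
  have h2 : (cuspFunction 1 ⇑E₄ ∘ fun τ : ℍ => Function.Periodic.qParam 1 τ) = ⇑E₄ := by
    funext τ
    exact SlashInvariantFormClass.eq_cuspFunction E₄ τ one_mem_strictPeriods_SL one_ne_zero
  have h3 : cuspFunction 1 ⇑E₄ 0 = 1 := by
    have := E_qExpansion_coeff_zero (k := 4) (by norm_num) ⟨2, rfl⟩
    simpa [qExpansion_coeff] using this
  rw [h2, h3] at h1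
  exact h1

/-- slash by an upper triangular matrix with positive diagonal -/
lemma gForm_slash_upper (f : ℍ → ℂ) (a b d : ℝ) (ha : 0 < a) (hd : 0 < d) (τ : ℍ) :
    (f ∣[(4 : ℤ)] upperTriangularGL a b d (mul_pos ha hd).ne') τ
      = f (upperTriangularGL a b d (mul_pos ha hd).ne' • τ) * ((a * d : ℝ) : ℂ) ^ 3 * (d : ℂ) ^ (-4 : ℤ) := by
  have hdet : ((upperTriangularGL a b d (mul_pos ha hd).ne').det : ℝ) = a * d := by
    rw [Matrix.GeneralLinearGroup.val_det_apply, val_upperTriangularGL, Matrix.det_fin_two_of]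
    ring
  have hpos : 0 < ((upperTriangularGL a b d (mul_pos ha hd).ne').det : ℝ) := by
    rw [hdet]; exact mul_pos ha hd
  rw [ModularForm.slash_apply, UpperHalfPlane.σ, if_pos hpos, hdet, abs_of_pos (mul_pos ha hd)]
  simp [UpperHalfPlane.denom]

lemma gForm_tendsto_slash_upper (a b d : ℝ) (ha : 0 < a) (hd : 0 < d) :
    Filter.Tendsto ((⇑E₄ : ℍ → ℂ) ∣[(4 : ℤ)] upperTriangularGL a b d (mul_pos ha hd).ne') atImInfty
      (𝓝 (((a * d : ℝ) : ℂ) ^ 3 * (d : ℂ) ^ (-4 : ℤ))) := by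
  have h1 : Filter.Tendsto (fun τ : ℍ => upperTriangularGL a b d (mul_pos ha hd).ne' • τ)
      atImInfty atImInfty := tendsto_smul_atImInfty (by simp)
  have h2 := (gForm_tendsto_E4.comp h1).mul_const (((a * d : ℝ) : ℂ) ^ 3 * (d : ℂ) ^ (-4 : ℤ))
  rw [one_mul] at h2
  refine h2.congr fun τ => ?_
  rw [gForm_slash_upper _ a b d ha hd τ]
  simp [mul_assoc]

open ConjAct Pointwise in
lemma gForm_le (N : ℕ) [NeZero N] :
    ((CongruenceSubgroup.Gamma0 N : Subgroup SL(2, ℤ)) : Subgroup (GL (Fin 2) ℝ)) ≤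
      toConjAct (heckeDiagMatrix N)⁻¹ • 𝒮ℒ := by
  rintro _ ⟨γ, hγ, rfl⟩
  rw [Subgroup.mem_pointwise_smul_iff_inv_smul_mem, ConjAct.smul_def]
  have hN : N ≠ 0 := NeZero.ne N
  have hN' : (N : ℝ) ≠ 0 := by exact_mod_cast hN
  have hc : ((γ 1 0 : ℤ) : ZMod N) = 0 := CongruenceSubgroup.Gamma0_mem.mp hγ
  obtain ⟨c', hc'⟩ := (ZMod.intCast_zmod_eq_zero_iff_dvd _ N).mp hc
  have hdet : γ 0 0 * γ 1 1 - γ 0 1 * γ 1 0 = 1 := by
    have := γ.det_coe
    rwa [Matrix.det_fin_two] at this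
  let δ : SL(2, ℤ) := ⟨!![γ 0 0, N * γ 0 1; c', γ 1 1], by
    rw [Matrix.det_fin_two_of]
    rw [hc'] at hdet
    linarith⟩
  refine ⟨δ, ?_⟩
  simp only [map_inv, inv_inv, ofConjAct_toConjAct]
  rw [eq_mul_inv_iff_mul_eq]
  apply Matrix.GeneralLinearGroup.ext
  intro i j
  have hc'' : ((γ 1 0 : ℤ) : ℝ) = N * c' := by rw [hc']; push_cast; ring
  have h00 : δ 0 0 = γ 0 0 := rfl
  have h01 : δ 0 1 = N * γ 0 1 := rfl
  have h10 : δ 1 0 = c' := rfl
  have h11 : δ 1 1 = γ 1 1 := rfl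
  fin_cases i <;> fin_cases j <;>
    simp [Matrix.mul_apply, Fin.sum_univ_two, val_heckeDiagMatrix hN, h00, h01, h10, h11, hc'',
      mul_comm]

/-- the form `E₄ ∣[4] diag(N,1) = N³ E₄(N z)` on `Γ₀(N)` -/
noncomputable def gForm (N : ℕ) [NeZero N] : ModularForm (CongruenceSubgroup.Gamma0 N) 4 where
  toFun := (⇑E₄ : ℍ → ℂ) ∣[(4 : ℤ)] heckeDiagMatrix N
  slash_action_eq' γ hγ := (translate E₄ (heckeDiagMatrix N)).slash_action_eq' γ (gForm_le N hγ)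
  holo' := (translate E₄ (heckeDiagMatrix N)).holo'
  bdd_at_cusps' hc := (translate E₄ (heckeDiagMatrix N)).bdd_at_cusps' (hc.mono (gForm_le N))

lemma gForm_coe (N : ℕ) [NeZero N] :
    (⇑(gForm N) : ℍ → ℂ) = (⇑E₄ : ℍ → ℂ) ∣[(4 : ℤ)] heckeDiagMatrix N := rfl

lemma gForm_one_mem (N : ℕ) :
    (1 : ℝ) ∈ ((CongruenceSubgroup.Gamma0 N : Subgroup SL(2, ℤ)) :
      Subgroup (GL (Fin 2) ℝ)).strictPeriods := by
  simp

lemma gForm_coeff (N : ℕ) [NeZero N] (n : ℕ) :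
    (qExpansion 1 (gForm N)).coeff n =
      if N ∣ n then (N : ℂ) ^ 3 * (qExpansion 1 E₄).coeff (n / N) else 0 := by
  have hN : N ≠ 0 := NeZero.ne N
  set c : ℕ → ℂ := fun n => if N ∣ n then (N : ℂ) ^ 3 * (qExpansion 1 E₄).coeff (n / N) else 0
    with hc
  suffices ∀ τ : ℍ, HasSum (fun m ↦ c m • Function.Periodic.qParam (1 : ℝ) τ ^ m) (gForm N τ) from
    (ModularFormClass.qExpansion_coeff_unique one_pos (gForm_one_mem N) this n).symm
  intro τ
  have h1 := (ModularForm.hasSum_qExpansion E₄ one_pos one_mem_strictPeriods_SL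
    (heckeDiagMatrix N • τ)).mul_left ((N : ℂ) ^ 3)
  have h2 : Function.Periodic.qParam (1 : ℝ) ((heckeDiagMatrix N • τ : ℍ) : ℂ)
      = Function.Periodic.qParam (1 : ℝ) τ ^ N := by
    rw [coe_heckeDiagMatrix_smul hN, Function.Periodic.qParam, Function.Periodic.qParam,
      ← Complex.exp_nat_mul]
    congr 1
    ring
  have h3 : gForm N τ = (N : ℂ) ^ 3 * E₄ (heckeDiagMatrix N • τ) := by
    rw [gForm_coe, slash_heckeDiagMatrix_apply 4 hN]
    norm_num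
  rw [h3]
  have hinj : Function.Injective (fun m : ℕ => N * m) := fun a b hab =>
    Nat.eq_of_mul_eq_mul_left (Nat.pos_of_ne_zero hN) hab
  rw [← hinj.hasSum_iff]
  · have hfun : ((fun m ↦ c m • Function.Periodic.qParam (1 : ℝ) τ ^ m) ∘ fun m : ℕ => N * m)
        = fun i => (N : ℂ) ^ 3 * ((qExpansion 1 E₄).coeff i *
          Function.Periodic.qParam 1 ((heckeDiagMatrix N • τ : ℍ) : ℂ) ^ i) := by
      funext m
      simp only [Function.comp, hc, dvd_mul_right, if_true, Nat.mul_div_cancel_left _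
        (Nat.pos_of_ne_zero hN), h2, smul_eq_mul, ← pow_mul]
      ring
    rw [hfun]
    exact h1
  · intro x hx
    have : ¬ N ∣ x := fun ⟨m, hm⟩ => hx ⟨m, hm.symm⟩
    simp [hc, this]

lemma gForm_stab (N : ℕ) [NeZero N] (γ : SL(2, ℤ))
    (h : (⇑(gForm N) : ℍ → ℂ) ∣[(4 : ℤ)] γ = ⇑(gForm N)) : γ ∈ CongruenceSubgroup.Gamma0 N := by
  have hN : N ≠ 0 := NeZero.ne N
  have hNpos : (0 : ℝ) < N := by exact_mod_cast Nat.pos_of_ne_zero hN
  obtain ⟨a, ha⟩ : ∃ a, a = γ 0 0 := ⟨_, rfl⟩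
  obtain ⟨b, hb⟩ : ∃ b, b = γ 0 1 := ⟨_, rfl⟩
  obtain ⟨c, hc⟩ : ∃ c, c = γ 1 0 := ⟨_, rfl⟩
  obtain ⟨d, hd⟩ : ∃ d, d = γ 1 1 := ⟨_, rfl⟩
  have hdet : a * d - b * c = 1 := by
    have := γ.det_coe
    rw [Matrix.det_fin_two] at this
    rw [ha, hb, hc, hd]; exact this
  obtain ⟨e, he⟩ : ∃ e : ℕ, e = Int.gcd c N := ⟨_, rfl⟩
  have hepos : 0 < e := by
    rw [he]; exact Int.gcd_pos_of_ne_zero_right _ (by exact_mod_cast hN)
  obtain ⟨c1, hc1⟩ : (e : ℤ) ∣ c := by rw [he]; exact Int.gcd_dvd_left ..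
  obtain ⟨n1, hn1⟩ : (e : ℤ) ∣ N := by rw [he]; exact Int.gcd_dvd_right ..
  obtain ⟨u, v, hbez⟩ : ∃ u v : ℤ, (e : ℤ) = c * u + N * v :=
    ⟨_, _, by rw [he]; exact Int.gcd_eq_gcd_ab c N⟩
  have he0 : (e : ℤ) ≠ 0 := by exact_mod_cast hepos.ne'
  have h1 : c1 * u + n1 * v = 1 := by
    have : (e : ℤ) * (c1 * u + n1 * v) = e * 1 := by
      rw [mul_add, ← mul_assoc, ← mul_assoc, ← hc1, ← hn1, mul_one]; exact hbez.symm
    exact mul_left_cancel₀ he0 this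
  have hn1pos : 0 < n1 := by
    have h2 : (0 : ℤ) < e * n1 := by rw [← hn1]; exact_mod_cast Nat.pos_of_ne_zero hN
    exact (pos_iff_pos_of_mul_pos h2).mp (by exact_mod_cast hepos)
  have heR : (0 : ℝ) < e := by exact_mod_cast hepos
  have hn1R : (0 : ℝ) < n1 := by exact_mod_cast hn1pos
  let δ : SL(2, ℤ) := ⟨!![n1 * a, e * b - a * (u * d); c1, v * d], by
    rw [Matrix.det_fin_two_of]
    have : n1 * a * (v * d) - (e * b - a * (u * d)) * c1
        = a * d * (c1 * u + n1 * v) - b * (e * c1) := by ring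
    rw [this, h1, ← hc1]; linarith⟩
  have key : heckeDiagMatrix N * Matrix.SpecialLinearGroup.mapGL ℝ γ
      = Matrix.SpecialLinearGroup.mapGL ℝ δ *
        upperTriangularGL e ((u * d : ℤ) : ℝ) n1 (mul_pos heR hn1R).ne' := by
    apply Matrix.GeneralLinearGroup.ext
    intro i j
    have h00 : δ 0 0 = n1 * a := rfl
    have h01 : δ 0 1 = e * b - a * (u * d) := rfl
    have h10 : δ 1 0 = c1 := rfl
    have h11 : δ 1 1 = v * d := rfl
    have hNR : (N : ℝ) = e * n1 := by exact_mod_cast hn1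
    have hcR : (c : ℝ) = e * c1 := by exact_mod_cast hc1
    have h1R : (c1 : ℝ) * u + n1 * v = 1 := by exact_mod_cast h1
    fin_cases i <;> fin_cases j
    · simp [Matrix.mul_apply, Fin.sum_univ_two, val_heckeDiagMatrix hN, h00, h01, h10, h11, ← ha,
        hNR]
      ring
    · simp [Matrix.mul_apply, Fin.sum_univ_two, val_heckeDiagMatrix hN, h00, h01, h10, h11, ← hb,
        hNR]
      ring
    · simp [Matrix.mul_apply, Fin.sum_univ_two, val_heckeDiagMatrix hN, h00, h01, h10, h11, ← hc,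
        hcR]
      ring
    · simp [Matrix.mul_apply, Fin.sum_univ_two, val_heckeDiagMatrix hN, h00, h01, h10, h11, ← hd]
      linear_combination (-(d : ℝ)) * h1R
  have hsl : (⇑(gForm N) : ℍ → ℂ) ∣[(4 : ℤ)] γ
      = (⇑E₄ : ℍ → ℂ) ∣[(4 : ℤ)] upperTriangularGL e ((u * d : ℤ) : ℝ) n1 (mul_pos heR hn1R).ne' := by
    have e1 : (⇑(gForm N) : ℍ → ℂ) ∣[(4 : ℤ)] γ
        = (⇑(gForm N) : ℍ → ℂ) ∣[(4 : ℤ)] (Matrix.SpecialLinearGroup.mapGL ℝ γ) := rfl
    have e2 : (Matrix.SpecialLinearGroup.mapGL ℝ δ) ∈ 𝒮ℒ := ⟨δ, rfl⟩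
    rw [e1, gForm_coe, ← SlashAction.slash_mul, key, SlashAction.slash_mul,
      SlashInvariantFormClass.slash_action_eq E₄ (Matrix.SpecialLinearGroup.mapGL ℝ δ) e2]
  have lim1 := gForm_tendsto_slash_upper e ((u * d : ℤ) : ℝ) n1 heR hn1R
  rw [← hsl, h] at lim1
  have hdiag : heckeDiagMatrix N = upperTriangularGL N 0 1 (mul_pos hNpos one_pos).ne' := by
    rw [heckeDiagMatrix, dif_neg hN]
  have lim2 := gForm_tendsto_slash_upper N 0 1 hNpos one_pos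
  rw [← hdiag, ← gForm_coe] at lim2
  have heq := tendsto_nhds_unique lim1 lim2
  have hNR : (N : ℝ) = e * n1 := by exact_mod_cast hn1
  rw [← hNR] at heq
  have hNC : ((N : ℝ) : ℂ) ≠ 0 := by exact_mod_cast hN
  have hn1C : ((n1 : ℝ) : ℂ) ≠ 0 := by exact_mod_cast hn1pos.ne'
  have h4 : ((n1 : ℝ) : ℂ) ^ 4 = 1 := by
    simp only [mul_one, Complex.ofReal_one, one_zpow] at heq
    have h5 : ((n1 : ℝ) : ℂ) ^ (-4 : ℤ) = 1 := by
      have := mul_left_cancel₀ (pow_ne_zero 3 hNC) (heq.trans (mul_one _).symm)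
      exact this
    rw [zpow_neg, inv_eq_one] at h5
    exact_mod_cast h5
  have h5 : n1 ^ 4 = 1 := by exact_mod_cast h4
  have h6 : n1 = 1 := by
    rcases (pow_eq_one_iff_of_ne_zero (by norm_num : (4 : ℕ) ≠ 0)).mp h5 with h | ⟨h, _⟩
    · exact h
    · omega
  rw [CongruenceSubgroup.Gamma0_mem, ZMod.intCast_zmod_eq_zero_iff_dvd, ← hc, hn1, h6, mul_one, hc1]
  exact dvd_mul_right _ _

/-- (M4) A weight 4 modular form `G` on `Γ₀(N)` (`G = E₄ ∣[4] diag(N,1) = N³ E₄(N z)`) with integral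
`q`-expansion whose stabiliser in `SL(2,ℤ)` is exactly `Γ₀(N)`. -/
theorem gForm_exists (N : ℕ) [NeZero N] :
    ∃ G : ModularForm (CongruenceSubgroup.Gamma0 N) 4,
      (∀ n : ℕ, ∃ m : ℤ, (qExpansion 1 G).coeff n = (m : ℂ)) ∧
      ∀ γ : SL(2, ℤ), (⇑G) ∣[(4 : ℤ)] γ = ⇑G → γ ∈ CongruenceSubgroup.Gamma0 N := by
  refine ⟨gForm N, fun n => ?_, gForm_stab N⟩
  rw [gForm_coeff]
  by_cases h : N ∣ n
  · obtain ⟨m, hm⟩ := levelOne_E4_int (n / N)
    exact ⟨(N : ℤ) ^ 3 * m, by rw [if_pos h, hm]; push_cast; ring⟩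
  · exact ⟨0, by rw [if_neg h]; simp⟩

end Fermat.Agent.S23
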