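import Mathlib
import Fermat.Prelude.Def_CuspForm_IntegralStructure
import Fermat.Agent.S23.Conj
import Fermat.Agent.S23.GForm

set_option autoImplicit false

open UpperHalfPlane ModularForm
open scoped MatrixGroups ModularForm

namespace Fermat.Agent.S23

/-- **σ-stability** of `S_k(Γ₀(N))`. -/
theorem stable_Gamma0 (N : ℕ) [NeZero N] (k : ℤ) (σ : ℂ →+* ℂ)
    (f : CuspForm (CongruenceSubgroup.Gamma0 N) k) :
    ∃ g : CuspForm (CongruenceSubgroup.Gamma0 N) k,
      ∀ n, ModularFormClass.qCoeff g n = σ (ModularFormClass.qCoeff f n) := by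
  obtain ⟨G, hGint, hGstab⟩ := gForm_exists N
  have h1 : (1 : ℝ) ∈ (CongruenceSubgroup.Gamma0 N : Subgroup (GL (Fin 2) ℝ)).strictPeriods := by
    rw [CongruenceSubgroup.strictPeriods_Gamma0]
    exact AddSubgroup.mem_zmultiples 1
  have hGn : IsNice G := isNice_of_modularForm h1 G
  have hGσ : QPair σ G G := by
    refine ⟨hGn, hGn, ?_⟩
    ext n
    obtain ⟨m, hm⟩ := hGint n
    rw [PowerSeries.coeff_map, hm, map_intCast]
  obtain ⟨g, hg⟩ := conj_exists σ h1 G hGσ hGstab f
  refine ⟨g, fun n => ?_⟩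
  rw [ModularFormClass.qCoeff, hg, PowerSeries.coeff_map]
  rfl

end Fermat.Agent.S23
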