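import Mathlib

set_option autoImplicit false

open PowerSeries

namespace Fermat.Agent.S23

/-- (M8) `ℤ⟦X⟧` is integrally closed (it is a UFD), in the following concrete form. -/
theorem intClosed_powerSeries (ψ : ℂ⟦X⟧) (u v : ℤ⟦X⟧) (hv : v ≠ 0)
    (h : ψ * PowerSeries.map (Int.castRingHom ℂ) v = PowerSeries.map (Int.castRingHom ℂ) u)
    (p : Polynomial ℤ⟦X⟧) (hp : p.Monic)
    (hroot : Polynomial.eval₂ (PowerSeries.map (Int.castRingHom ℂ)) ψ p = 0) :
    ∃ w : ℤ⟦X⟧, PowerSeries.map (Int.castRingHom ℂ) w = ψ := by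
  set φ : ℤ⟦X⟧ →+* ℂ⟦X⟧ := PowerSeries.map (Int.castRingHom ℂ) with hφ
  have hφinj : Function.Injective φ :=
    PowerSeries.map_injective _ (RingHom.injective_int (Int.castRingHom ℂ))
  let K := FractionRing ℤ⟦X⟧
  let L := FractionRing ℂ⟦X⟧
  let g : ℤ⟦X⟧ →+* L := (algebraMap ℂ⟦X⟧ L).comp φ
  have hg : Function.Injective g := (IsFractionRing.injective ℂ⟦X⟧ L).comp hφinj
  let l : K →+* L := IsFractionRing.lift hg
  have hl : ∀ a : ℤ⟦X⟧, l (algebraMap ℤ⟦X⟧ K a) = g a := fun a => IsFractionRing.lift_algebraMap hg a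
  have hvK : algebraMap ℤ⟦X⟧ K v ≠ 0 := by
    intro h0
    exact hv ((IsFractionRing.injective ℤ⟦X⟧ K) (by rw [h0, map_zero]))
  let x : K := algebraMap ℤ⟦X⟧ K u / algebraMap ℤ⟦X⟧ K v
  have hgv : g v ≠ 0 := by
    intro h0
    exact hv (hg (by rw [h0, map_zero]))
  have hlx : l x = algebraMap ℂ⟦X⟧ L ψ := by
    simp only [x, map_div₀, hl]
    rw [div_eq_iff hgv]
    simp only [g, RingHom.comp_apply]
    rw [← map_mul, h]
  have hx0 : Polynomial.eval₂ (algebraMap ℤ⟦X⟧ K) x p = 0 := by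
    apply l.injective
    rw [map_zero, Polynomial.hom_eval₂, hlx]
    have : l.comp (algebraMap ℤ⟦X⟧ K) = (algebraMap ℂ⟦X⟧ L).comp φ := RingHom.ext hl
    rw [this, ← Polynomial.hom_eval₂, hroot, map_zero]
  have hint : IsIntegral ℤ⟦X⟧ x := ⟨p, hp, hx0⟩
  obtain ⟨w, hw⟩ := IsIntegrallyClosed.isIntegral_iff.mp hint
  refine ⟨w, ?_⟩
  have hφv : φ v ≠ 0 := by
    intro h0
    exact hv (hφinj (by rw [h0, map_zero]))
  have h1 : w * v = u := by
    apply IsFractionRing.injective ℤ⟦X⟧ K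
    rw [map_mul, hw]
    exact div_mul_cancel₀ _ hvK
  apply mul_right_cancel₀ hφv
  rw [← map_mul, h1, h]

end Fermat.Agent.S23
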